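import Mathlib.Analysis.SpecialFunctions.Elliptic.Weierstrass
import Mathlib.NumberTheory.ModularForms.LevelOne.DimensionFormula
import Mathlib.Analysis.Complex.Polynomial.Basic
import Mathlib.NumberTheory.ModularForms.LevelOne.GradedRing

section MergeWrap_S20_JInjective_WeierstrassUnique -- from S20/JInjective/WeierstrassUnique.lean

set_option autoImplicit false

namespace Fermat.Agent.S20

open Filter Topology
open scoped PeriodPair

variable (L L' : PeriodPair)

/-- Near `0` (excluding `0`), `z² ℘(z) = z² ℘[L-0](z) + 1`. -/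
lemma wp_aux_sq_mul (z : ℂ) (hz : z ≠ 0) :
    z ^ 2 * ℘[L] z = z ^ 2 * ℘[L - (0 : ℂ)] z + 1 := by
  have h := L.weierstrassPExcept_def 0 z
  simp only [ZeroMemClass.coe_zero, sub_zero] at h
  rw [h]
  field_simp
  ring

/-- Near `0` (excluding `0`), `z³ ℘'(z) = z³ ℘'[L-0](z) - 2`. -/
lemma wp_aux_cube_mul (z : ℂ) (hz : z ≠ 0) :
    z ^ 3 * ℘'[L] z = z ^ 3 * ℘'[L - (0 : ℂ)] z - 2 := by
  have h := L.derivWeierstrassPExcept_def 0 z
  simp only [ZeroMemClass.coe_zero, sub_zero] at h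
  rw [h]
  field_simp
  ring

/-- The differential equation multiplied by `z⁶`, in terms of the regular parts. -/
lemma wp_aux_ode (z : ℂ) (hz : z ∉ L.lattice) :
    (z ^ 3 * ℘'[L - (0 : ℂ)] z - 2) ^ 2 =
      4 * (z ^ 2 * ℘[L - (0 : ℂ)] z + 1) ^ 3 - L.g₂ * z ^ 4 * (z ^ 2 * ℘[L - (0 : ℂ)] z + 1)
        - L.g₃ * z ^ 6 := by
  have hz0 : z ≠ 0 := by
    rintro rfl
    exact hz (zero_mem _)
  rw [← wp_aux_sq_mul L z hz0, ← wp_aux_cube_mul L z hz0]
  have h := L.derivWeierstrassP_sq z hz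
  linear_combination z ^ 6 * h

/-- Eventually near `0` (punctured), points are not in the lattice. -/
lemma wp_aux_eventually_notMem : ∀ᶠ z in 𝓝[≠] (0 : ℂ), z ∉ L.lattice := by
  have h := L.compl_lattice_sdiff_singleton_mem_nhds 0
  filter_upwards [mem_nhdsWithin_of_mem_nhds h, self_mem_nhdsWithin] with z hz hz0
  intro hzL
  exact hz ⟨hzL, hz0⟩

/-- The regular parts at `0` of two Weierstrass functions with the same invariants agree
near `0`. -/
lemma wp_except_eventuallyEq (h₂ : L.g₂ = L'.g₂) (h₃ : L.g₃ = L'.g₃) :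
    ∀ᶠ z in 𝓝 (0 : ℂ), ℘[L - (0 : ℂ)] z - ℘[L' - (0 : ℂ)] z = 0 := by
  set a : ℂ → ℂ := ℘[L - (0 : ℂ)] with ha
  set b : ℂ → ℂ := ℘[L' - (0 : ℂ)] with hb
  set a' : ℂ → ℂ := ℘'[L - (0 : ℂ)] with ha'
  set b' : ℂ → ℂ := ℘'[L' - (0 : ℂ)] with hb'
  have haA : AnalyticAt ℂ a 0 := L.analyticAt_weierstrassPExcept 0
  have hbA : AnalyticAt ℂ b 0 := L'.analyticAt_weierstrassPExcept 0
  have ha'A : AnalyticAt ℂ a' 0 := L.analyticAt_derivWeierstrassPExcept 0
  have hb'A : AnalyticAt ℂ b' 0 := L'.analyticAt_derivWeierstrassPExcept 0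
  have hdA : AnalyticAt ℂ (fun z => a z - b z) 0 := haA.sub hbA
  by_contra hne
  obtain ⟨n, g, hgA, hg0, hfac⟩ := (hdA.exists_eventuallyEq_pow_smul_nonzero_iff).mpr hne
  simp only [sub_zero, smul_eq_mul] at hfac
  -- derivative of `d`
  have hderiv_d : ∀ᶠ z in 𝓝[≠] (0 : ℂ), deriv (fun z => a z - b z) z = a' z - b' z := by
    have h1 := L.compl_lattice_sdiff_singleton_mem_nhds 0
    have h2 := L'.compl_lattice_sdiff_singleton_mem_nhds 0
    filter_upwards [mem_nhdsWithin_of_mem_nhds h1, mem_nhdsWithin_of_mem_nhds h2] with z hz1 hz2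
    have e1 : deriv a z = a' z := L.eqOn_deriv_weierstrassPExcept_derivWeierstrassPExcept 0 hz1
    have e2 : deriv b z = b' z := L'.eqOn_deriv_weierstrassPExcept_derivWeierstrassPExcept 0 hz2
    have d1 : DifferentiableAt ℂ a z :=
      (L.differentiableOn_weierstrassPExcept 0).differentiableAt
        (L.isOpen_compl_lattice_sdiff.mem_nhds hz1)
    have d2 : DifferentiableAt ℂ b z :=
      (L'.differentiableOn_weierstrassPExcept 0).differentiableAt
        (L'.isOpen_compl_lattice_sdiff.mem_nhds hz2)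
    rw [deriv_fun_sub d1 d2, e1, e2]
  have hderiv_fac : ∀ᶠ z in 𝓝 (0 : ℂ), deriv (fun z => a z - b z) z =
      (n : ℂ) * z ^ (n - 1) * g z + z ^ n * deriv g z := by
    have hev : ∀ᶠ z in 𝓝 (0 : ℂ), (fun z => a z - b z) =ᶠ[𝓝 z] fun z => z ^ n * g z :=
      hfac.eventually_nhds
    filter_upwards [hev, hgA.eventually_analyticAt] with z hz hgz
    rw [hz.deriv_eq]
    have hd1 : DifferentiableAt ℂ (fun z : ℂ => z ^ n) z := by fun_prop
    rw [deriv_fun_mul hd1 hgz.differentiableAt]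
    simp
  -- the key identity on a punctured neighbourhood
  have hkey : ∀ᶠ z in 𝓝[≠] (0 : ℂ),
      ((n : ℂ) * g z + z * deriv g z) * (z ^ 3 * (a' z + b' z) - 4) -
        g z * (4 * ((z ^ 2 * a z + 1) ^ 2 + (z ^ 2 * a z + 1) * (z ^ 2 * b z + 1)
          + (z ^ 2 * b z + 1) ^ 2) - L.g₂ * z ^ 4) = 0 := by
    filter_upwards [hderiv_d, mem_nhdsWithin_of_mem_nhds hderiv_fac,
      mem_nhdsWithin_of_mem_nhds hfac, wp_aux_eventually_notMem L, wp_aux_eventually_notMem L',
      self_mem_nhdsWithin] with z hz1 hz2 hz3 hzL hzL' hz0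
    have hz0' : z ≠ 0 := hz0
    have o1 := wp_aux_ode L z hzL
    have o2 := wp_aux_ode L' z hzL'
    rw [← h₂, ← h₃] at o2
    change (z ^ 3 * a' z - 2) ^ 2 = 4 * (z ^ 2 * a z + 1) ^ 3 - L.g₂ * z ^ 4 * (z ^ 2 * a z + 1)
        - L.g₃ * z ^ 6 at o1
    change (z ^ 3 * b' z - 2) ^ 2 = 4 * (z ^ 2 * b z + 1) ^ 3 - L.g₂ * z ^ 4 * (z ^ 2 * b z + 1)
        - L.g₃ * z ^ 6 at o2
    rw [hz1] at hz2
    -- hz2 : a' z - b' z = n z^(n-1) g z + z^n g' z ; hz3 : a z - b z = z^n g z
    have hzn : z * ((n : ℂ) * z ^ (n - 1)) = (n : ℂ) * z ^ n := by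
      rcases n with _ | m
      · simp
      · simp only [Nat.add_sub_cancel]; ring
    have e1 : z * (a' z - b' z) = z ^ n * ((n : ℂ) * g z + z * deriv g z) := by
      rw [hz2]
      linear_combination (g z) * hzn
    have hzn0 : z ^ n ≠ 0 := pow_ne_zero _ hz0'
    have hz20 : z ^ 2 ≠ 0 := pow_ne_zero _ hz0'
    apply mul_left_cancel₀ (mul_ne_zero hz20 hzn0)
    rw [mul_zero]
    linear_combination (-(z ^ 2 * (z ^ 3 * (a' z + b' z) - 4))) * e1
      + (z ^ 2 * (4 * ((z ^ 2 * a z + 1) ^ 2 + (z ^ 2 * a z + 1) * (z ^ 2 * b z + 1)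
          + (z ^ 2 * b z + 1) ^ 2) - L.g₂ * z ^ 4)) * hz3 + o1 - o2
  -- continuity at 0 gives the value at 0
  set F : ℂ → ℂ := fun z => ((n : ℂ) * g z + z * deriv g z) * (z ^ 3 * (a' z + b' z) - 4) -
        g z * (4 * ((z ^ 2 * a z + 1) ^ 2 + (z ^ 2 * a z + 1) * (z ^ 2 * b z + 1)
          + (z ^ 2 * b z + 1) ^ 2) - L.g₂ * z ^ 4) with hF
  have hFc : ContinuousAt F 0 := by
    have c1 : ContinuousAt g 0 := hgA.continuousAt
    have c2 : ContinuousAt (deriv g) 0 := hgA.deriv.continuousAt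
    have c3 : ContinuousAt a 0 := haA.continuousAt
    have c4 : ContinuousAt b 0 := hbA.continuousAt
    have c5 : ContinuousAt a' 0 := ha'A.continuousAt
    have c6 : ContinuousAt b' 0 := hb'A.continuousAt
    simp only [hF]
    fun_prop
  have hF0 : F 0 = 0 := by
    by_contra hF0
    have h1 : ∀ᶠ z in 𝓝[≠] (0 : ℂ), F z ≠ 0 :=
      mem_nhdsWithin_of_mem_nhds (hFc.eventually_ne hF0)
    have h2 : ∀ᶠ z in 𝓝[≠] (0 : ℂ), False := by
      filter_upwards [h1, hkey] with z hz1 hz2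
      exact hz1 hz2
    exact (h2.exists).elim fun _ h => h
  simp only [hF] at hF0
  have ha0 : a 0 = 0 := L.weierstrassPExcept_zero 0
  have hb0 : b 0 = 0 := L'.weierstrassPExcept_zero 0
  rw [ha0, hb0] at hF0
  have hF0' : g 0 * (-(4 * (n : ℂ) + 12)) = 0 := by linear_combination hF0
  rcases mul_eq_zero.mp hF0' with h | h
  · exact hg0 h
  · have h3 : ((4 * n + 12 : ℕ) : ℂ) = 0 := by push_cast; linear_combination -h
    have h4 : (4 * n + 12 : ℕ) = 0 := by exact_mod_cast h3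
    omega

end Fermat.Agent.S20

namespace Fermat.Agent.S20

open Filter Topology
open scoped PeriodPair

variable (L L' : PeriodPair)

/-- Two Weierstrass functions with the same invariants agree on a punctured neighbourhood
of `0`. -/
lemma wp_eventuallyEq_zero (h₂ : L.g₂ = L'.g₂) (h₃ : L.g₃ = L'.g₃) :
    ∀ᶠ z in 𝓝[≠] (0 : ℂ), ℘[L] z = ℘[L'] z := by
  filter_upwards [mem_nhdsWithin_of_mem_nhds (wp_except_eventuallyEq L L' h₂ h₃)] with z hz
  have e1 := L.weierstrassPExcept_add 0 z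
  have e2 := L'.weierstrassPExcept_add 0 z
  simp only [ZeroMemClass.coe_zero] at e1 e2
  rw [← e1, ← e2]
  linear_combination hz

lemma wp_lattice_countable : (L.lattice : Set ℂ).Countable := by
  have : Countable L.lattice := Countable.of_equiv _ L.latticeEquivProd.toEquiv.symm
  exact Set.countable_coe_iff.mp this

lemma wp_isPreconnected_compl_union :
    IsPreconnected ((L.lattice : Set ℂ) ∪ (L'.lattice : Set ℂ))ᶜ := by
  have hc : ((L.lattice : Set ℂ) ∪ (L'.lattice : Set ℂ)).Countable :=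
    (wp_lattice_countable L).union (wp_lattice_countable L')
  have hr : 1 < Module.rank ℝ ℂ := by
    rw [Complex.rank_real_complex]
    norm_num
  exact (hc.isPathConnected_compl_of_one_lt_rank hr).isConnected.isPreconnected

/-- Two Weierstrass functions with the same invariants agree away from the two lattices. -/
lemma wp_eqOn_compl_union (h₂ : L.g₂ = L'.g₂) (h₃ : L.g₃ = L'.g₃) :
    Set.EqOn ℘[L] ℘[L'] ((L.lattice : Set ℂ) ∪ (L'.lattice : Set ℂ))ᶜ := by
  have hA : AnalyticOnNhd ℂ ℘[L] ((L.lattice : Set ℂ) ∪ (L'.lattice : Set ℂ))ᶜ :=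
    L.analyticOnNhd_weierstrassP.mono (by
      intro z hz hzL
      exact hz (Or.inl hzL))
  have hA' : AnalyticOnNhd ℂ ℘[L'] ((L.lattice : Set ℂ) ∪ (L'.lattice : Set ℂ))ᶜ :=
    L'.analyticOnNhd_weierstrassP.mono (by
      intro z hz hzL
      exact hz (Or.inr hzL))
  -- find a point near `0` where the two functions agree on a neighbourhood
  have hev : ∀ᶠ z in 𝓝[≠] (0 : ℂ), ℘[L] z = ℘[L'] z ∧ z ∉ L.lattice ∧ z ∉ L'.lattice := by
    filter_upwards [wp_eventuallyEq_zero L L' h₂ h₃, wp_aux_eventually_notMem L,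
      wp_aux_eventually_notMem L'] with z h1 h2 h3
    exact ⟨h1, h2, h3⟩
  have hev2 : ∀ᶠ z in 𝓝[≠] (0 : ℂ), ∀ᶠ w in 𝓝 z, ℘[L] w = ℘[L'] w := by
    rw [eventually_nhdsWithin_iff] at hev ⊢
    have := hev.eventually_nhds
    filter_upwards [this] with z hz hz0
    have hz0' : ∀ᶠ w in 𝓝 z, w ∈ ({0}ᶜ : Set ℂ) := isOpen_compl_singleton.mem_nhds hz0
    filter_upwards [hz, hz0'] with w hw hw0
    exact (hw hw0).1
  obtain ⟨z₀, ⟨_, hz₀L, hz₀L'⟩, hz₀⟩ := (hev.and hev2).exists
  refine hA.eqOn_of_preconnected_of_eventuallyEq hA' (wp_isPreconnected_compl_union L L')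
    (z₀ := z₀) ?_ hz₀
  rintro (h | h)
  · exact hz₀L h
  · exact hz₀L' h

/-- A period lattice is determined by `g₂` and `g₃`: one inclusion. -/
theorem lattice_le_of_g₂_g₃ (h₂ : L.g₂ = L'.g₂) (h₃ : L.g₃ = L'.g₃) :
    L.lattice ≤ L'.lattice := by
  intro l hl
  by_contra hl'
  have hEq := wp_eqOn_compl_union L L' h₂ h₃
  have h1 : (↑L.lattice \ {l} : Set ℂ)ᶜ ∈ 𝓝 l := L.compl_lattice_sdiff_singleton_mem_nhds l
  have h2 : (↑L'.lattice : Set ℂ)ᶜ ∈ 𝓝 l := L'.isClosed_lattice.isOpen_compl.mem_nhds hl'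
  have hcongr : ℘[L] =ᶠ[𝓝[≠] l] ℘[L'] := by
    filter_upwards [mem_nhdsWithin_of_mem_nhds h1, mem_nhdsWithin_of_mem_nhds h2,
      self_mem_nhdsWithin] with z hz1 hz2 hz3
    apply hEq
    rintro (h | h)
    · exact hz1 ⟨h, hz3⟩
    · exact hz2 h
  have ho := meromorphicOrderAt_congr hcongr
  rw [L.order_weierstrassP l hl] at ho
  have hA : AnalyticAt ℂ ℘[L'] l := L'.analyticOnNhd_weierstrassP l hl'
  have hnn : 0 ≤ meromorphicOrderAt ℘[L'] l := hA.meromorphicOrderAt_nonneg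
  rw [← ho] at hnn
  exact absurd hnn (by decide)

/-- A period lattice is determined by `g₂` and `g₃`. -/
theorem lattice_eq_of_g₂_g₃ (h₂ : L.g₂ = L'.g₂) (h₃ : L.g₃ = L'.g₃) :
    L.lattice = L'.lattice :=
  le_antisymm (lattice_le_of_g₂_g₃ L L' h₂ h₃) (lattice_le_of_g₂_g₃ L' L h₂.symm h₃.symm)

end Fermat.Agent.S20
end MergeWrap_S20_JInjective_WeierstrassUnique

section MergeWrap_S20_JInjective_Lattice -- from S20/JInjective/Lattice.lean

set_option autoImplicit false

namespace Fermat.Agent.S20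

open UpperHalfPlane ModularForm EisensteinSeries
open scoped MatrixGroups ModularForm Manifold

/-- The period pair `(c z, c)` attached to `z ∈ ℍ` and a nonzero scalar `c`. -/
noncomputable def jPeriodPair (z : ℍ) (c : ℂ) (hc : c ≠ 0) : PeriodPair where
  ω₁ := c * z
  ω₂ := c
  indep := by
    rw [LinearIndependent.pair_iff]
    intro s t h
    have h1 : c * ((s : ℂ) * z + t) = 0 := by
      simp only [Complex.real_smul] at h
      linear_combination h
    have h2 : (s : ℂ) * z + t = 0 := by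
      rcases mul_eq_zero.mp h1 with h | h
      · exact absurd h hc
      · exact h
    have h3 := congrArg Complex.im h2
    simp only [Complex.add_im, Complex.mul_im, Complex.ofReal_re, Complex.ofReal_im,
      zero_mul, add_zero, Complex.zero_im, UpperHalfPlane.coe_im] at h3
    have hs : s = 0 := by
      rcases mul_eq_zero.mp h3 with h | h
      · exact h
      · exact absurd h z.im_ne_zero
    refine ⟨hs, ?_⟩
    rw [hs] at h2
    simpa using h2

@[simp] lemma jPeriodPair_ω₁ (z : ℍ) (c : ℂ) (hc : c ≠ 0) :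
    (jPeriodPair z c hc).ω₁ = c * z := rfl

@[simp] lemma jPeriodPair_ω₂ (z : ℍ) (c : ℂ) (hc : c ≠ 0) :
    (jPeriodPair z c hc).ω₂ = c := rfl

/-- The lattice sum `G_k` of `c (ℤ z + ℤ)` in terms of the Eisenstein summands. -/
lemma jPeriodPair_G_eq_tsum (z : ℍ) (c : ℂ) (hc : c ≠ 0) (k : ℕ) :
    (jPeriodPair z c hc).G k = (c ^ k)⁻¹ * ∑' v : Fin 2 → ℤ, eisSummand k v z := by
  rw [PeriodPair.G, ← (jPeriodPair z c hc).latticeEquivProd.symm.toEquiv.tsum_eq,
    ← (finTwoArrowEquiv ℤ).tsum_eq, ← tsum_mul_left]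
  refine tsum_congr fun v => ?_
  simp only [LinearEquiv.coe_toEquiv, PeriodPair.latticeEquiv_symm_apply, jPeriodPair_ω₁,
    jPeriodPair_ω₂, finTwoArrowEquiv_apply, eisSummand, zpow_neg, zpow_natCast]
  rw [← mul_inv, ← mul_pow]
  congr 2
  simp only [piFinTwoEquiv, Equiv.toFun_as_coe, Equiv.coe_fn_mk]
  ring

/-- The lattice sum `G_k` of `c (ℤ z + ℤ)` in terms of `E_k`. -/
lemma jPeriodPair_G_eq (z : ℍ) (c : ℂ) (hc : c ≠ 0) {k : ℕ} (hk : 3 ≤ k) :
    (jPeriodPair z c hc).G k = (c ^ k)⁻¹ * (2 * riemannZeta k * E hk z) := by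
  rw [jPeriodPair_G_eq_tsum, tsum_eisSummand_eq_riemannZeta_mul_eisensteinSeries hk]
  have hE : E hk z = (1 / 2 : ℂ) • eisensteinSeries (N := 1) 0 k z := rfl
  rw [hE, smul_eq_mul]
  ring

lemma jPeriodPair_g₂ (z : ℍ) (c : ℂ) (hc : c ≠ 0) :
    (jPeriodPair z c hc).g₂ = 120 * riemannZeta 4 * ((c ^ 4)⁻¹ * E₄ z) := by
  rw [PeriodPair.g₂, jPeriodPair_G_eq z c hc (by norm_num : 3 ≤ 4)]
  push_cast
  ring

lemma jPeriodPair_g₃ (z : ℍ) (c : ℂ) (hc : c ≠ 0) :
    (jPeriodPair z c hc).g₃ = 280 * riemannZeta 6 * ((c ^ 6)⁻¹ * E₆ z) := by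
  rw [PeriodPair.g₃, jPeriodPair_G_eq z c hc (by norm_num : 3 ≤ 6)]
  push_cast
  ring

end Fermat.Agent.S20
end MergeWrap_S20_JInjective_Lattice

section MergeWrap_S20_JInjective_Main -- from S20/JInjective/Main.lean

set_option autoImplicit false

namespace Fermat.Agent.S20

open UpperHalfPlane ModularForm EisensteinSeries
open scoped MatrixGroups ModularForm Manifold

/-- Integer relation `a w + b = 0` with `w ∈ ℍ` forces `a = b = 0`. -/
lemma jinj_int_rel (w : ℍ) (a b : ℤ) (h : (a : ℂ) * w + b = 0) : a = 0 ∧ b = 0 := by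
  have h3 := congrArg Complex.im h
  simp only [Complex.add_im, Complex.mul_im, Complex.intCast_re, Complex.intCast_im,
    zero_mul, add_zero, Complex.zero_im, UpperHalfPlane.coe_im] at h3
  have ha : a = 0 := by
    rcases mul_eq_zero.mp h3 with h | h
    · exact_mod_cast h
    · exact absurd h w.im_ne_zero
  refine ⟨ha, ?_⟩
  rw [ha] at h
  simpa using h

/-- If `ℤ w + ℤ = c (ℤ z + ℤ)` then `w ∈ SL(2,ℤ) z`. -/
theorem jinj_exists_smul_eq_of_lattice_eq (z w : ℍ) (c : ℂ) (hc : c ≠ 0)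
    (h : (jPeriodPair w 1 one_ne_zero).lattice = (jPeriodPair z c hc).lattice) :
    ∃ g : SL(2, ℤ), g • z = w := by
  have hw1 : (w : ℂ) ∈ (jPeriodPair z c hc).lattice := by
    rw [← h]
    have := (jPeriodPair w 1 one_ne_zero).ω₁_mem_lattice
    simpa using this
  have hw2 : (1 : ℂ) ∈ (jPeriodPair z c hc).lattice := by
    rw [← h]
    exact (jPeriodPair w 1 one_ne_zero).ω₂_mem_lattice
  have hz1 : c * (z : ℂ) ∈ (jPeriodPair w 1 one_ne_zero).lattice := by
    rw [h]
    exact (jPeriodPair z c hc).ω₁_mem_lattice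
  have hz2 : c ∈ (jPeriodPair w 1 one_ne_zero).lattice := by
    rw [h]
    exact (jPeriodPair z c hc).ω₂_mem_lattice
  obtain ⟨m, n, e1⟩ := PeriodPair.mem_lattice.mp hw1
  obtain ⟨m', n', e2⟩ := PeriodPair.mem_lattice.mp hw2
  obtain ⟨p, q, e3⟩ := PeriodPair.mem_lattice.mp hz1
  obtain ⟨p', q', e4⟩ := PeriodPair.mem_lattice.mp hz2
  simp only [jPeriodPair_ω₁, jPeriodPair_ω₂, one_mul, mul_one] at e1 e2 e3 e4
  -- the two matrices are inverse to each other
  have r1 : ((m * p + n * p' - 1 : ℤ) : ℂ) * w + ((m * q + n * q' : ℤ) : ℂ) = 0 := by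
    push_cast
    linear_combination (m : ℂ) * e3 + (n : ℂ) * e4 + e1
  have r2 : ((m' * p + n' * p' : ℤ) : ℂ) * w + ((m' * q + n' * q' - 1 : ℤ) : ℂ) = 0 := by
    push_cast
    linear_combination (m' : ℂ) * e3 + (n' : ℂ) * e4 + e2
  obtain ⟨s1, s2⟩ := jinj_int_rel w _ _ r1
  obtain ⟨s3, s4⟩ := jinj_int_rel w _ _ r2
  have hdet : (m * n' - n * m') * (p * q' - q * p') = 1 := by
    linear_combination (m' * q + n' * q') * s1 + s4 - (m' * p + n' * p') * s2
  -- numerators and denominators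
  have hden : c * ((m' : ℂ) * z + n') = 1 := by linear_combination e2
  have hnum : c * ((m : ℂ) * z + n) = w := by linear_combination e1
  have hden0 : (m' : ℂ) * z + n' ≠ 0 := by
    intro h0
    rw [h0, mul_zero] at hden
    exact zero_ne_one hden
  have hquot : (w : ℂ) * ((m' : ℂ) * z + n') = (m : ℂ) * z + n := by
    have : c * ((w : ℂ) * ((m' : ℂ) * z + n')) = c * ((m : ℂ) * z + n) := by
      linear_combination (w : ℂ) * hden - hnum
    exact mul_left_cancel₀ hc this
  -- positivity of the determinant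
  have hpos : 0 < ((m * n' - n * m' : ℤ) : ℝ) := by
    have key : ((m * n' - n * m' : ℤ) : ℝ) * z.im =
        w.im * Complex.normSq ((m' : ℂ) * z + n') := by
      have h1 := congrArg Complex.im
        (congrArg (fun x => x * (starRingEnd ℂ) ((m' : ℂ) * z + n')) hquot)
      simp only [mul_assoc, Complex.mul_conj] at h1
      have h2 : ((w : ℂ) * (Complex.normSq ((m' : ℂ) * z + n') : ℂ)).im =
          w.im * Complex.normSq ((m' : ℂ) * z + n') := by
        rw [Complex.im_mul_ofReal]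
        rfl
      rw [h2] at h1
      rw [h1]
      simp only [map_add, map_mul, map_intCast, Complex.add_im, Complex.mul_im,
        Complex.add_re, Complex.mul_re, Complex.intCast_re, Complex.intCast_im, Complex.conj_re,
        Complex.conj_im, UpperHalfPlane.coe_im, UpperHalfPlane.coe_re]
      push_cast
      ring
    have hn : 0 < Complex.normSq ((m' : ℂ) * z + n') := Complex.normSq_pos.mpr hden0
    have hr : 0 < w.im * Complex.normSq ((m' : ℂ) * z + n') := mul_pos w.im_pos hn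
    rw [← key] at hr
    exact (pos_iff_pos_of_mul_pos hr).mpr z.im_pos
  have hposZ : 0 < m * n' - n * m' := by exact_mod_cast hpos
  have hD : m * n' - n * m' = 1 := by
    rcases Int.eq_one_or_neg_one_of_mul_eq_one hdet with h | h
    · exact h
    · omega
  have hg : ∃ g : SL(2, ℤ), (g : Matrix (Fin 2) (Fin 2) ℤ) = !![m, n; m', n'] :=
    ⟨⟨!![m, n; m', n'], by rw [Matrix.det_fin_two_of]; linear_combination hD⟩, rfl⟩
  obtain ⟨g, hg⟩ := hg
  refine ⟨g, ?_⟩
  apply UpperHalfPlane.ext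
  rw [UpperHalfPlane.coe_specialLinearGroup_apply, hg]
  simp only [Matrix.of_apply, Matrix.cons_val', Matrix.cons_val_zero, Matrix.cons_val_one,
    Matrix.cons_val_fin_one, algebraMap_int_eq, Int.coe_castRingHom, Complex.ofReal_intCast]
  rw [div_eq_iff hden0]
  exact hquot.symm

/-- The algebra producing the scaling factor `l` with `A' = l⁴ A`, `B' = l⁶ B`. -/
lemma jinj_exists_scaling (A B A' B' : ℂ) (hΔ : A ^ 3 - B ^ 2 ≠ 0) (hΔ' : A' ^ 3 - B' ^ 2 ≠ 0)
    (h : A ^ 3 * B' ^ 2 = A' ^ 3 * B ^ 2) :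
    ∃ l : ℂ, l ≠ 0 ∧ A' = l ^ 4 * A ∧ B' = l ^ 6 * B := by
  by_cases hA : A = 0
  · -- then `B ≠ 0`, `A' = 0`, `B' ≠ 0`
    have hB : B ≠ 0 := by
      rintro rfl
      apply hΔ
      rw [hA]
      ring
    have hA' : A' = 0 := by
      rw [hA] at h
      have : A' ^ 3 * B ^ 2 = 0 := by rw [← h]; ring
      rcases mul_eq_zero.mp this with h1 | h1
      · exact pow_eq_zero_iff (by norm_num) |>.mp h1
      · exact absurd (pow_eq_zero_iff (by norm_num) |>.mp h1) hB
    have hB' : B' ≠ 0 := by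
      rintro rfl
      apply hΔ'
      rw [hA']
      ring
    obtain ⟨l, hl⟩ := IsAlgClosed.exists_pow_nat_eq (B' / B) (n := 6) (by norm_num)
    refine ⟨l, ?_, ?_, ?_⟩
    · rintro rfl
      rw [zero_pow (by norm_num)] at hl
      exact div_ne_zero hB' hB hl.symm
    · rw [hA, hA', mul_zero]
    · rw [hl]
      field_simp
  · by_cases hB : B = 0
    · have hB' : B' = 0 := by
        rw [hB] at h
        have : A ^ 3 * B' ^ 2 = 0 := by rw [h]; ring
        rcases mul_eq_zero.mp this with h1 | h1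
        · exact absurd (pow_eq_zero_iff (by norm_num) |>.mp h1) hA
        · exact pow_eq_zero_iff (by norm_num) |>.mp h1
      have hA' : A' ≠ 0 := by
        rintro rfl
        apply hΔ'
        rw [hB']
        ring
      obtain ⟨l, hl⟩ := IsAlgClosed.exists_pow_nat_eq (A' / A) (n := 4) (by norm_num)
      refine ⟨l, ?_, ?_, ?_⟩
      · rintro rfl
        rw [zero_pow (by norm_num)] at hl
        exact div_ne_zero hA' hA hl.symm
      · rw [hl]
        field_simp
      · rw [hB, hB', mul_zero]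
    · -- generic case
      have hA' : A' ≠ 0 := by
        rintro rfl
        have : A ^ 3 * B' ^ 2 = 0 := by rw [h]; ring
        rcases mul_eq_zero.mp this with h1 | h1
        · exact absurd (pow_eq_zero_iff (by norm_num) |>.mp h1) hA
        · apply hΔ'
          rw [pow_eq_zero_iff (by norm_num) |>.mp h1]
          ring
      have hB' : B' ≠ 0 := by
        rintro rfl
        have : A' ^ 3 * B ^ 2 = 0 := by rw [← h]; ring
        rcases mul_eq_zero.mp this with h1 | h1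
        · exact absurd (pow_eq_zero_iff (by norm_num) |>.mp h1) hA'
        · exact absurd (pow_eq_zero_iff (by norm_num) |>.mp h1) hB
      obtain ⟨l, hl⟩ := IsAlgClosed.exists_pow_nat_eq ((B' * A) / (B * A')) (n := 2) (by norm_num)
      have hl2 : l ^ 2 * (B * A') = B' * A := by
        rw [hl]
        field_simp
      refine ⟨l, ?_, ?_, ?_⟩
      · rintro rfl
        rw [zero_pow (by norm_num)] at hl
        exact div_ne_zero (mul_ne_zero hB' hA) (mul_ne_zero hB hA') hl.symm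
      · -- `l⁴ A = A'`
        have e : (l ^ 4 * A - A') * (B ^ 2 * A' ^ 2) = 0 := by
          linear_combination (l ^ 2 * (B * A') + B' * A) * A * hl2 + h
        rcases mul_eq_zero.mp e with h1 | h1
        · linear_combination -h1
        · exact absurd h1 (mul_ne_zero (pow_ne_zero _ hB) (pow_ne_zero _ hA'))
      · have e : (l ^ 6 * B - B') * (B ^ 3 * A' ^ 3) = 0 := by
          linear_combination ((l ^ 2 * (B * A')) ^ 2 + (l ^ 2 * (B * A')) * (B' * A)
            + (B' * A) ^ 2) * B * hl2 + B * B' * h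
        rcases mul_eq_zero.mp e with h1 | h1
        · linear_combination -h1
        · exact absurd h1 (mul_ne_zero (pow_ne_zero _ hB) (pow_ne_zero _ hA'))

end Fermat.Agent.S20
end MergeWrap_S20_JInjective_Main

section MergeWrap_S20_JInjective -- from S20/JInjective.lean

set_option autoImplicit false

namespace Fermat.Agent.S20

open UpperHalfPlane ModularForm
open scoped MatrixGroups ModularForm Manifold

theorem exists_smul_eq_of_j_eq (z w : ℍ)
    (h : E₄ z ^ 3 * ModularForm.discriminant w = E₄ w ^ 3 * ModularForm.discriminant z) :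
    ∃ g : SL(2, ℤ), g • z = w := by
  have hz := ModularForm.discriminant_eq_E₄_cube_sub_E₆_sq z
  have hw := ModularForm.discriminant_eq_E₄_cube_sub_E₆_sq w
  have hΔz : E₄ z ^ 3 - E₆ z ^ 2 ≠ 0 := by
    intro h0
    apply ModularForm.discriminant_ne_zero z
    rw [hz, h0, zero_div]
  have hΔw : E₄ w ^ 3 - E₆ w ^ 2 ≠ 0 := by
    intro h0
    apply ModularForm.discriminant_ne_zero w
    rw [hw, h0, zero_div]
  have hrel : E₄ z ^ 3 * E₆ w ^ 2 = E₄ w ^ 3 * E₆ z ^ 2 := by
    rw [hz, hw] at h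
    linear_combination (-1728 : ℂ) * h
  obtain ⟨l, hl0, hl4, hl6⟩ := jinj_exists_scaling (E₄ z) (E₆ z) (E₄ w) (E₆ w) hΔz hΔw hrel
  have hc : l⁻¹ ≠ 0 := inv_ne_zero hl0
  apply jinj_exists_smul_eq_of_lattice_eq z w l⁻¹ hc
  apply lattice_eq_of_g₂_g₃
  · rw [jPeriodPair_g₂, jPeriodPair_g₂, hl4]
    simp
  · rw [jPeriodPair_g₃, jPeriodPair_g₃, hl6]
    simp

end Fermat.Agent.S20
end MergeWrap_S20_JInjective
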