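import Mathlib.NumberTheory.ModularForms.NormTrace
import Mathlib.NumberTheory.ModularForms.LevelOne.GradedRing
import Mathlib.LinearAlgebra.Basis.VectorSpace
import Mathlib.LinearAlgebra.Finsupp.LinearCombination
import Fermat.Agent.S20.Defs
import Fermat.Agent.MU.S20.LevelOne
import Fermat.Agent.MU.S20.Cosets

section MergeWrap_S20_FreeGens_Closure -- from S20/FreeGens/Closure.lean

set_option autoImplicit false

namespace Fermat.Agent.S20

open UpperHalfPlane ModularForm CongruenceSubgroup Filter Topology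
open scoped MatrixGroups ModularForm Manifold

variable {N : ℕ} {k l : ℤ} {f g : ℍ → ℂ}

lemma fg_isMF_zero (N : ℕ) (k : ℤ) : IsMF N k (0 : ℍ → ℂ) where
  holo := mdifferentiable_const
  slash γ _ := SlashAction.zero_slash k γ
  bdd γ := by
    have : (0 : ℍ → ℂ) ∣[k] γ = 0 := SlashAction.zero_slash k γ
    rw [this]
    exact zero_form_isBoundedAtImInfty

lemma fg_isMF_add (hf : IsMF N k f) (hg : IsMF N k g) : IsMF N k (f + g) where
  holo := hf.holo.add hg.holo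
  slash γ hγ := by
    rw [SlashAction.add_slash, hf.slash γ hγ, hg.slash γ hγ]
  bdd γ := by
    rw [SlashAction.add_slash]
    exact (hf.bdd γ).add (hg.bdd γ)

lemma fg_isMF_smul (c : ℂ) (hf : IsMF N k f) : IsMF N k (c • f) where
  holo := hf.holo.const_smul c
  slash γ hγ := by
    rw [ModularForm.SL_smul_slash, hf.slash γ hγ]
  bdd γ := by
    rw [ModularForm.SL_smul_slash]
    exact (hf.bdd γ).const_smul_left c

lemma fg_isMF_neg (hf : IsMF N k f) : IsMF N k (-f) := by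
  have := fg_isMF_smul (-1 : ℂ) hf
  simpa using this

lemma fg_isMF_sub (hf : IsMF N k f) (hg : IsMF N k g) : IsMF N k (f - g) := by
  rw [sub_eq_add_neg]
  exact fg_isMF_add hf (fg_isMF_neg hg)

lemma fg_isMF_mul (hf : IsMF N k f) (hg : IsMF N l g) : IsMF N (k + l) (f * g) where
  holo := hf.holo.mul hg.holo
  slash γ hγ := by
    rw [mul_slash_SL2, hf.slash γ hγ, hg.slash γ hγ]
  bdd γ := by
    rw [mul_slash_SL2]
    exact (hf.bdd γ).mul (hg.bdd γ)

lemma fg_isMF_of_one (hf : IsMF 1 k f) : IsMF N k f where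
  holo := hf.holo
  slash γ _ := hf.slash γ (by rw [Gamma0_mem]; exact Subsingleton.elim _ _)
  bdd := hf.bdd

lemma fg_isMF_cast {k' : ℤ} (hf : IsMF N k f) (h : k = k') : IsMF N k' f := h ▸ hf

lemma fg_isMF_mul' {m : ℤ} (hf : IsMF N k f) (hg : IsMF N l g) (h : k + l = m) :
    IsMF N m (f * g) := fg_isMF_cast (fg_isMF_mul hf hg) h

lemma fg_isMF_const (N : ℕ) (c : ℂ) : IsMF N 0 (fun _ : ℍ => c) where
  holo := mdifferentiable_const
  slash γ _ := by
    ext z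
    simp [SL_slash_apply]
  bdd γ := by
    have : (fun _ : ℍ => c) ∣[(0 : ℤ)] γ = fun _ : ℍ => c := by
      ext z
      simp [SL_slash_apply]
    rw [this]
    exact const_boundedAtFilter _ c

lemma fg_isMF_sum {ι : Type*} (s : Finset ι) (F : ι → ℍ → ℂ) (h : ∀ i ∈ s, IsMF N k (F i)) :
    IsMF N k (∑ i ∈ s, F i) := by
  classical
  induction s using Finset.induction_on with
  | empty => simpa using fg_isMF_zero N k
  | insert a s ha ih =>
    rw [Finset.sum_insert ha]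
    exact fg_isMF_add (h a (Finset.mem_insert_self a s))
      (ih fun i hi => h i (Finset.mem_insert_of_mem hi))

/-- Negative weight forms vanish. -/
lemma fg_eq_zero_of_neg [NeZero N] (hf : IsMF N k f) (hk : k < 0) : f = 0 := by
  have := ModularForm.isZero_of_neg_weight (𝒢 := (Gamma0 N).map (Matrix.SpecialLinearGroup.mapGL ℝ)) hk hf.toMF
  simpa using congrArg (fun F : ModularForm _ k => (F : ℍ → ℂ)) this

end Fermat.Agent.S20
end MergeWrap_S20_FreeGens_Closure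

section MergeWrap_S20_FreeGens_LevelOne -- from S20/FreeGens/LevelOne.lean

set_option autoImplicit false

namespace Fermat.Agent.S20

open UpperHalfPlane ModularForm CongruenceSubgroup EisensteinSeries
open scoped MatrixGroups ModularForm Manifold

lemma fg_mem_Gamma0_one (γ : SL(2, ℤ)) : γ ∈ Gamma0 1 := by
  rw [Gamma0_mem]
  exact Subsingleton.elim _ _

/-- a bundled level-one form is `IsMF 1`. -/
lemma fg_isMF_one_coe {m : ℤ} (F : ModularForm 𝒮ℒ m) : IsMF 1 m F where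
  holo := F.holo'
  slash γ _ := SlashInvariantForm.slash_action_eqn F _ ⟨γ, rfl⟩
  bdd γ := ModularFormClass.bdd_at_infty_slash F γ

/-- Bundle an `IsMF 1` function as a Mathlib level-one form. -/
noncomputable def fg_toLevelOne {m : ℤ} {P : ℍ → ℂ} (h : IsMF 1 m P) : ModularForm 𝒮ℒ m where
  toFun := P
  slash_action_eq' := by
    rintro _ ⟨γ, rfl⟩
    exact h.slash γ (fg_mem_Gamma0_one γ)
  holo' := h.holo
  bdd_at_cusps' {c} hc := by
    rw [Subgroup.IsArithmetic.isCusp_iff_isCusp_SL2Z] at hc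
    rw [OnePoint.isBoundedAt_iff_forall_SL2Z hc]
    exact fun γ _ => h.bdd γ

@[simp] lemma fg_coe_toLevelOne {m : ℤ} {P : ℍ → ℂ} (h : IsMF 1 m P) :
    ⇑(fg_toLevelOne h) = P := rfl

end Fermat.Agent.S20

namespace Fermat.Agent.S20

open UpperHalfPlane ModularForm CongruenceSubgroup EisensteinSeries
open scoped MatrixGroups ModularForm Manifold

lemma fg_levelOne_eq_zero_of_neg {m : ℤ} {P : ℍ → ℂ} (h : IsMF 1 m P) (hm : m < 0) : P = 0 := by
  have := ModularFormClass.levelOne_neg_weight_eq_zero hm (fg_toLevelOne h)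
  simpa using this

lemma fg_levelOne_eq_zero_of_odd {m : ℤ} {P : ℍ → ℂ} (h : IsMF 1 m P) (hm : Odd m) : P = 0 := by
  have := ModularForm.levelOne_odd_weight_eq_zero hm (fg_toLevelOne h)
  simpa using congrArg (fun F : ModularForm 𝒮ℒ m => (F : ℍ → ℂ)) this

lemma fg_levelOne_eq_zero_of_two {P : ℍ → ℂ} (h : IsMF 1 2 P) : P = 0 := by
  have := rank_zero_iff_forall_zero.mp ModularForm.levelOne_weight_two_rank_zero (fg_toLevelOne h)
  simpa using congrArg (fun F : ModularForm 𝒮ℒ 2 => (F : ℍ → ℂ)) this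

lemma fg_levelOne_const {P : ℍ → ℂ} (h : IsMF 1 0 P) : ∃ c : ℂ, P = fun _ => c := by
  obtain ⟨c, hc⟩ := ModularFormClass.levelOne_weight_zero_const (fg_toLevelOne h)
  exact ⟨c, hc⟩

lemma fg_levelOne_four {P : ℍ → ℂ} (h : IsMF 1 4 P) : ∃ c : ℂ, P = c • (E₄ : ℍ → ℂ) := by
  obtain ⟨c, hc⟩ := (finrank_eq_one_iff_of_nonzero' E₄ (E_ne_zero _ ⟨2, rfl⟩)).mp
      (Module.rank_eq_one_iff_finrank_eq_one.mp ModularForm.levelOne_weight_four_rank_one)
      (fg_toLevelOne h)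
  refine ⟨c, ?_⟩
  have := congrArg (fun F : ModularForm 𝒮ℒ 4 => (F : ℍ → ℂ)) hc
  simpa using this.symm

lemma fg_levelOne_six {P : ℍ → ℂ} (h : IsMF 1 6 P) : ∃ c : ℂ, P = c • (E₆ : ℍ → ℂ) := by
  obtain ⟨c, hc⟩ := (finrank_eq_one_iff_of_nonzero' E₆ (E_ne_zero _ ⟨3, rfl⟩)).mp
      (Module.rank_eq_one_iff_finrank_eq_one.mp ModularForm.levelOne_weight_six_rank_one)
      (fg_toLevelOne h)
  refine ⟨c, ?_⟩
  have := congrArg (fun F : ModularForm 𝒮ℒ 6 => (F : ℍ → ℂ)) hc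
  simpa using this.symm

/-- A level-one form with vanishing constant term is `Δ` times a form of weight `m - 12`. -/
lemma fg_levelOne_cusp {m : ℤ} {P : ℍ → ℂ} (h : IsMF 1 m P)
    (h0 : (qExpansion 1 P).coeff 0 = 0) :
    ∃ g : ℍ → ℂ, IsMF 1 (m - 12) g ∧ P = (ModularForm.discriminant : ℍ → ℂ) * g := by
  have h0' : (qExpansion 1 (fg_toLevelOne h)).coeff 0 = 0 := h0
  refine ⟨CuspForm.discriminantEquiv (toCuspForm (fg_toLevelOne h) h0'), fg_isMF_one_coe _, ?_⟩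
  have := ModularForm.discriminant_mul_discriminantEquiv (toCuspForm (fg_toLevelOne h) h0')
  rw [this]
  rfl

end Fermat.Agent.S20

namespace Fermat.Agent.S20

open UpperHalfPlane ModularForm CongruenceSubgroup EisensteinSeries
open scoped MatrixGroups ModularForm Manifold

/-- Subtracting the constant term times a form with constant term `1` leaves `Δ * g`. -/
lemma fg_levelOne_sub_eq_discriminant_mul {m : ℤ} {P G : ℍ → ℂ} (h : IsMF 1 m P)
    (hG : IsMF 1 m G) (hG1 : (qExpansion 1 G).coeff 0 = 1) :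
    ∃ (c : ℂ) (g : ℍ → ℂ), IsMF 1 (m - 12) g ∧
      P = c • G + (ModularForm.discriminant : ℍ → ℂ) * g := by
  have hcusp := ModularForm.sub_smul_isCuspForm (fg_toLevelOne h) (fg_toLevelOne hG) hG1
  rw [ModularForm.isCuspForm_iff_coeffZero_eq_zero] at hcusp
  set c : ℂ := (qExpansion 1 (fg_toLevelOne h)).coeff 0 with hc
  obtain ⟨g, hg, hPg⟩ := fg_levelOne_cusp
    (fg_isMF_one_coe (fg_toLevelOne h - c • fg_toLevelOne hG)) hcusp
  refine ⟨c, g, hg, ?_⟩
  have h1 : (⇑(fg_toLevelOne h - c • fg_toLevelOne hG) : ℍ → ℂ) = P - c • G := rfl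
  rw [h1] at hPg
  rw [← hPg]
  abel

end Fermat.Agent.S20

namespace Fermat.Agent.S20

open UpperHalfPlane ModularForm CongruenceSubgroup EisensteinSeries
open scoped MatrixGroups ModularForm Manifold

lemma fg_isMF_E₄ : IsMF 1 4 (E₄ : ℍ → ℂ) := fg_isMF_one_coe E₄

lemma fg_isMF_E₆ : IsMF 1 6 (E₆ : ℍ → ℂ) := fg_isMF_one_coe E₆

lemma fg_discriminant_eq :
    (ModularForm.discriminant : ℍ → ℂ) =
      (1 / 1728 : ℂ) • ((E₄ : ℍ → ℂ) * E₄ * E₄ - (E₆ : ℍ → ℂ) * E₆) := by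
  ext z
  rw [ModularForm.discriminant_eq_E₄_cube_sub_E₆_sq z]
  simp only [Pi.smul_apply, Pi.sub_apply, Pi.mul_apply, smul_eq_mul]
  ring

/-- `E₄` and `E₆` have no common zero. -/
lemma fg_E₄_ne_zero_or_E₆_ne_zero (z : ℍ) : E₄ z ≠ 0 ∨ E₆ z ≠ 0 := by
  by_contra hcon
  push Not at hcon
  have h := ModularForm.discriminant_eq_E₄_cube_sub_E₆_sq z
  rw [hcon.1, hcon.2] at h
  exact ModularForm.discriminant_ne_zero z (by rw [h]; norm_num)

/-- Level one: a form of nonzero weight lies in the ideal `(E₄, E₆)`. -/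
lemma fg_levelOne_decomp {m : ℤ} {P : ℍ → ℂ} (h : IsMF 1 m P) (hm : m ≠ 0) :
    ∃ A B : ℍ → ℂ, IsMF 1 (m - 4) A ∧ IsMF 1 (m - 6) B ∧
      P = (E₄ : ℍ → ℂ) * A + (E₆ : ℍ → ℂ) * B := by
  have hzero : P = 0 → ∃ A B : ℍ → ℂ, IsMF 1 (m - 4) A ∧ IsMF 1 (m - 6) B ∧
      P = (E₄ : ℍ → ℂ) * A + (E₆ : ℍ → ℂ) * B := by
    intro hP
    exact ⟨0, 0, fg_isMF_zero _ _, fg_isMF_zero _ _, by simp [hP]⟩
  rcases lt_or_ge m 0 with hneg | hnn
  · exact hzero (fg_levelOne_eq_zero_of_neg h hneg)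
  rcases Int.even_or_odd m with hev | hodd
  swap
  · exact hzero (fg_levelOne_eq_zero_of_odd h hodd)
  obtain ⟨n, rfl⟩ := Int.eq_ofNat_of_zero_le hnn
  have hev' : Even n := by exact_mod_cast hev
  have hn0 : n ≠ 0 := by exact_mod_cast hm
  obtain ⟨r, hr⟩ := hev'
  have hcases : n = 2 ∨ n = 4 ∨ n = 6 ∨ 8 ≤ n := by omega
  rcases hcases with h2 | h4 | h6 | h8
  · subst h2
    exact hzero (fg_levelOne_eq_zero_of_two h)
  · subst h4
    obtain ⟨c, hc⟩ := fg_levelOne_four h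
    refine ⟨fun _ => c, 0, fg_isMF_const 1 c, fg_isMF_zero _ _, ?_⟩
    rw [hc]
    ext z
    simp [mul_comm]
  · subst h6
    obtain ⟨c, hc⟩ := fg_levelOne_six h
    refine ⟨0, fun _ => c, fg_isMF_zero _ _, fg_isMF_const 1 c, ?_⟩
    rw [hc]
    ext z
    simp [mul_comm]
  · have hk' : 3 ≤ n - 4 := by omega
    have hk'2 : Even (n - 4) := ⟨r - 2, by omega⟩
    have hE' : IsMF 1 ((n : ℤ) - 4) (E hk' : ℍ → ℂ) :=
      fg_isMF_cast (fg_isMF_one_coe (E hk')) (by omega)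
    have hG : IsMF 1 (n : ℤ) ((E₄ : ℍ → ℂ) * (E hk' : ℍ → ℂ)) :=
      fg_isMF_mul' fg_isMF_E₄ hE' (by ring)
    have hG1 : (qExpansion 1 ((E₄ : ℍ → ℂ) * (E hk' : ℍ → ℂ))).coeff 0 = 1 := by
      rw [ModularForm.qExpansion_mul_coe one_pos one_mem_strictPeriods_SL E₄ (E hk'),
        PowerSeries.coeff_zero_eq_constantCoeff, map_mul,
        ← PowerSeries.coeff_zero_eq_constantCoeff,
        E_qExpansion_coeff_zero _ ⟨2, rfl⟩, E_qExpansion_coeff_zero hk' hk'2, mul_one]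
    obtain ⟨c, g, hg, hP⟩ := fg_levelOne_sub_eq_discriminant_mul h hG hG1
    refine ⟨c • (E hk' : ℍ → ℂ) + (1 / 1728 : ℂ) • ((E₄ : ℍ → ℂ) * ((E₄ : ℍ → ℂ) * g)),
      (-(1 / 1728 : ℂ)) • ((E₆ : ℍ → ℂ) * g), ?_, ?_, ?_⟩
    · refine fg_isMF_add (fg_isMF_smul c hE') (fg_isMF_smul _ ?_)
      exact fg_isMF_mul' fg_isMF_E₄ (fg_isMF_mul' fg_isMF_E₄ hg (by ring : (4 : ℤ) + (n - 12) = n - 8))
        (by ring)
    · exact fg_isMF_smul _ (fg_isMF_mul' fg_isMF_E₆ hg (by ring))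
    · rw [hP, fg_discriminant_eq]
      ext z
      simp only [Pi.add_apply, Pi.smul_apply, Pi.mul_apply, Pi.sub_apply, smul_eq_mul]
      ring

end Fermat.Agent.S20
end MergeWrap_S20_FreeGens_LevelOne

section MergeWrap_S20_FreeGens_Regular -- from S20/FreeGens/Regular.lean

set_option autoImplicit false

namespace Fermat.Agent.S20

open UpperHalfPlane ModularForm CongruenceSubgroup EisensteinSeries Filter Topology
open scoped MatrixGroups ModularForm Manifold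

/-- A level-one modular form tends to its constant coefficient at `i∞`. -/
lemma fg_tendsto_atImInfty {k : ℤ} (F : ModularForm 𝒮ℒ k) :
    Tendsto (F : ℍ → ℂ) atImInfty (𝓝 ((qExpansion 1 F).coeff 0)) := by
  have hper := SlashInvariantFormClass.periodic_comp_ofComplex F one_mem_strictPeriods_SL
  have han := ModularFormClass.analyticAt_cuspFunction_zero F one_pos one_mem_strictPeriods_SL
  have hcomp : (cuspFunction 1 F ∘ fun τ : ℍ ↦ Function.Periodic.qParam 1 τ : ℍ → ℂ) = F := by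
    funext τ
    simpa using eq_cuspFunction τ one_ne_zero hper
  have ht := han.continuousAt.tendsto.comp (qParam_tendsto_atImInfty one_pos)
  rw [hcomp] at ht
  rw [qExpansion_coeff_zero one_pos han hper, ← cuspFunction_apply_zero one_pos han hper]
  exact ht

lemma fg_tendsto_E₄ : Tendsto (E₄ : ℍ → ℂ) atImInfty (𝓝 1) := by
  have := fg_tendsto_atImInfty E₄
  rwa [E_qExpansion_coeff_zero _ ⟨2, rfl⟩] at this

lemma fg_tendsto_E₆ : Tendsto (E₆ : ℍ → ℂ) atImInfty (𝓝 1) := by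
  have := fg_tendsto_atImInfty E₆
  rwa [E_qExpansion_coeff_zero _ ⟨3, rfl⟩] at this

end Fermat.Agent.S20

namespace Fermat.Agent.S20

open UpperHalfPlane ModularForm CongruenceSubgroup EisensteinSeries Filter Topology
open scoped MatrixGroups ModularForm Manifold

/-- the quotient `b / E₄ = -a / E₆`. -/
noncomputable def fg_quot (a b : ℍ → ℂ) (z : ℍ) : ℂ :=
  if E₄ z = 0 then -a z / E₆ z else b z / E₄ z

lemma fg_slash_E₄_mul (k : ℤ) (h : ℍ → ℂ) (γ : SL(2, ℤ)) :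
    ((E₄ : ℍ → ℂ) * h) ∣[k] γ = (E₄ : ℍ → ℂ) * (h ∣[k - 4] γ) := by
  have h1 : ((E₄ : ℍ → ℂ) * h) ∣[k] γ = ((E₄ : ℍ → ℂ) * h) ∣[4 + (k - 4)] γ := by
    congr 1
    ring
  rw [h1, mul_slash_SL2, fg_isMF_E₄.slash γ (fg_mem_Gamma0_one γ)]

lemma fg_slash_E₆_mul (k : ℤ) (h : ℍ → ℂ) (γ : SL(2, ℤ)) :
    ((E₆ : ℍ → ℂ) * h) ∣[k] γ = (E₆ : ℍ → ℂ) * (h ∣[k - 6] γ) := by
  have h1 : ((E₆ : ℍ → ℂ) * h) ∣[k] γ = ((E₆ : ℍ → ℂ) * h) ∣[6 + (k - 6)] γ := by
    congr 1
    ring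
  rw [h1, mul_slash_SL2, fg_isMF_E₆.slash γ (fg_mem_Gamma0_one γ)]

lemma fg_mdiff_quot {a b : ℍ → ℂ} (ha : MDiff a) (hb : MDiff b)
    (hab : ∀ z : ℍ, E₄ z * a z + E₆ z * b z = 0) : MDiff (fg_quot a b) := by
  have hUo : IsOpen {w : ℂ | 0 < w.im} := isOpen_upperHalfPlaneSet
  have hE4 : DifferentiableOn ℂ ((E₄ : ℍ → ℂ) ∘ ofComplex) {w : ℂ | 0 < w.im} :=
    UpperHalfPlane.mdifferentiable_iff.1 E₄.holo'
  have hE6 : DifferentiableOn ℂ ((E₆ : ℍ → ℂ) ∘ ofComplex) {w : ℂ | 0 < w.im} :=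
    UpperHalfPlane.mdifferentiable_iff.1 E₆.holo'
  have hA : DifferentiableOn ℂ (a ∘ ofComplex) {w : ℂ | 0 < w.im} :=
    UpperHalfPlane.mdifferentiable_iff.1 ha
  have hB : DifferentiableOn ℂ (b ∘ ofComplex) {w : ℂ | 0 < w.im} :=
    UpperHalfPlane.mdifferentiable_iff.1 hb
  rw [UpperHalfPlane.mdifferentiable_iff]
  intro w hw
  have hUn : {w : ℂ | 0 < w.im} ∈ 𝓝 w := hUo.mem_nhds hw
  refine DifferentiableAt.differentiableWithinAt ?_
  by_cases h0 : E₄ (⟨w, hw⟩ : ℍ) = 0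
  · -- `E₆ ≠ 0` near `w`
    have h6 : E₆ (⟨w, hw⟩ : ℍ) ≠ 0 := by
      rcases fg_E₄_ne_zero_or_E₆_ne_zero ⟨w, hw⟩ with h | h
      · exact absurd h0 h
      · exact h
    have h6' : ((E₆ : ℍ → ℂ) ∘ ofComplex) w ≠ 0 := by
      simpa [Function.comp_apply, ofComplex_apply_of_im_pos hw] using h6
    have hd6 : DifferentiableAt ℂ ((E₆ : ℍ → ℂ) ∘ ofComplex) w := hE6.differentiableAt hUn
    have hev : (fg_quot a b ∘ ofComplex) =ᶠ[𝓝 w]
        fun z => -(a ∘ ofComplex) z / ((E₆ : ℍ → ℂ) ∘ ofComplex) z := by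
      filter_upwards [hd6.continuousAt.eventually_ne h6', hUn] with z hz hzU
      simp only [Function.comp_apply, ofComplex_apply_of_im_pos hzU] at hz ⊢
      by_cases h4 : E₄ (⟨z, hzU⟩ : ℍ) = 0
      · simp [fg_quot, h4]
      · simp only [fg_quot, h4, if_false]
        have := hab ⟨z, hzU⟩
        field_simp
        linear_combination this
    exact ((hA.differentiableAt hUn).neg.div hd6 h6').congr_of_eventuallyEq hev
  · have h4' : ((E₄ : ℍ → ℂ) ∘ ofComplex) w ≠ 0 := by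
      simpa [Function.comp_apply, ofComplex_apply_of_im_pos hw] using h0
    have hd4 : DifferentiableAt ℂ ((E₄ : ℍ → ℂ) ∘ ofComplex) w := hE4.differentiableAt hUn
    have hev : (fg_quot a b ∘ ofComplex) =ᶠ[𝓝 w]
        fun z => (b ∘ ofComplex) z / ((E₄ : ℍ → ℂ) ∘ ofComplex) z := by
      filter_upwards [hd4.continuousAt.eventually_ne h4', hUn] with z hz hzU
      simp only [Function.comp_apply, ofComplex_apply_of_im_pos hzU] at hz ⊢
      simp [fg_quot, hz]
    exact ((hB.differentiableAt hUn).div hd4 h4').congr_of_eventuallyEq hev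

/-- `E₄, E₆` is a regular sequence on `M_*(Γ₀(N))`. -/
lemma fg_regular {N : ℕ} {k : ℤ} {a b : ℍ → ℂ} (ha : IsMF N (k - 4) a)
    (hb : IsMF N (k - 6) b) (hab : (E₄ : ℍ → ℂ) * a + (E₆ : ℍ → ℂ) * b = 0) :
    ∃ h : ℍ → ℂ, IsMF N (k - 10) h ∧ b = (E₄ : ℍ → ℂ) * h ∧ a = -((E₆ : ℍ → ℂ) * h) := by
  have hab' : ∀ z : ℍ, E₄ z * a z + E₆ z * b z = 0 := fun z => by
    simpa using congrFun hab z
  have hb_eq : b = (E₄ : ℍ → ℂ) * fg_quot a b := by
    ext z
    simp only [Pi.mul_apply, fg_quot]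
    by_cases h4 : E₄ z = 0
    · have h6 : E₆ z ≠ 0 := (fg_E₄_ne_zero_or_E₆_ne_zero z).resolve_left (not_not.2 h4)
      have := hab' z
      rw [h4, zero_mul, zero_add] at this
      rw [if_pos h4, h4, zero_mul]
      exact (mul_eq_zero.1 this).resolve_left h6
    · rw [if_neg h4, mul_div_cancel₀ _ h4]
  have ha_eq : a = -((E₆ : ℍ → ℂ) * fg_quot a b) := by
    ext z
    simp only [Pi.mul_apply, Pi.neg_apply, fg_quot]
    by_cases h4 : E₄ z = 0
    · have h6 : E₆ z ≠ 0 := (fg_E₄_ne_zero_or_E₆_ne_zero z).resolve_left (not_not.2 h4)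
      rw [if_pos h4]
      field_simp
    · rw [if_neg h4]
      have := hab' z
      field_simp
      linear_combination this
  have hholo : MDiff (fg_quot a b) := fg_mdiff_quot ha.holo hb.holo hab'
  -- slash relations
  have hsl4 : ∀ γ : SL(2, ℤ), b ∣[k - 6] γ = (E₄ : ℍ → ℂ) * (fg_quot a b ∣[k - 10] γ) := by
    intro γ
    conv_lhs => rw [hb_eq]
    rw [fg_slash_E₄_mul]
    congr 2
    ring
  have hsl6 : ∀ γ : SL(2, ℤ), a ∣[k - 4] γ = -((E₆ : ℍ → ℂ) * (fg_quot a b ∣[k - 10] γ)) := by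
    intro γ
    conv_lhs => rw [ha_eq]
    rw [SlashAction.neg_slash, fg_slash_E₆_mul]
    congr 3
    ring
  refine ⟨fg_quot a b, ⟨hholo, ?_, ?_⟩, hb_eq, ha_eq⟩
  · intro γ hγ
    have h4 := hsl4 γ
    have h6 := hsl6 γ
    rw [hb.slash γ hγ] at h4
    rw [ha.slash γ hγ] at h6
    ext z
    have e4 : E₄ z * fg_quot a b z = E₄ z * (fg_quot a b ∣[k - 10] γ) z := by
      have h1 := congrFun h4 z
      have h2 := congrFun hb_eq z
      simp only [Pi.mul_apply] at h1 h2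
      rw [← h2, h1]
    have e6 : E₆ z * fg_quot a b z = E₆ z * (fg_quot a b ∣[k - 10] γ) z := by
      have h1 := congrFun h6 z
      have h2 := congrFun ha_eq z
      simp only [Pi.mul_apply, Pi.neg_apply] at h1 h2
      have h3 : -(E₆ z * fg_quot a b z) = -(E₆ z * (fg_quot a b ∣[k - 10] γ) z) := by
        rw [← h2, h1]
      exact neg_injective h3
    rcases fg_E₄_ne_zero_or_E₆_ne_zero z with h | h
    · exact (mul_left_cancel₀ h e4).symm
    · exact (mul_left_cancel₀ h e6).symm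
  · intro γ
    have h4 := hsl4 γ
    have hne : ∀ᶠ z in atImInfty, E₄ z ≠ 0 := fg_tendsto_E₄.eventually_ne one_ne_zero
    have hinv : IsBoundedAtImInfty (fun z => (E₄ z)⁻¹) := by
      have : Tendsto (fun z => (E₄ z)⁻¹) atImInfty (𝓝 (1 : ℂ)⁻¹) :=
        fg_tendsto_E₄.inv₀ one_ne_zero
      exact this.isBigO_one ℝ
    have hbd : IsBoundedAtImInfty ((b ∣[k - 6] γ) * fun z => (E₄ z)⁻¹) := (hb.bdd γ).mul hinv
    refine Asymptotics.IsBigO.congr' hbd ?_ EventuallyEq.rfl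
    filter_upwards [hne] with z hz
    have := congrFun h4 z
    simp only [Pi.mul_apply] at this ⊢
    rw [this, mul_comm (E₄ z), mul_assoc, mul_inv_cancel₀ hz, mul_one]

end Fermat.Agent.S20
end MergeWrap_S20_FreeGens_Regular

section MergeWrap_S20_FreeGens_Basis -- from S20/FreeGens/Basis.lean

set_option autoImplicit false

namespace Fermat.Agent.S20

open UpperHalfPlane ModularForm CongruenceSubgroup EisensteinSeries
open scoped MatrixGroups ModularForm Manifold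

/-- `M_k(Γ₀(N))` as a subspace of `ℍ → ℂ`. -/
def fgMF (N : ℕ) (k : ℤ) : Submodule ℂ (ℍ → ℂ) where
  carrier := {f | IsMF N k f}
  add_mem' := fun ha hb => fg_isMF_add ha hb
  zero_mem' := fg_isMF_zero N k
  smul_mem' := fun c _ hf => fg_isMF_smul c hf

lemma fg_mem_fgMF {N : ℕ} {k : ℤ} {f : ℍ → ℂ} : f ∈ fgMF N k ↔ IsMF N k f := Iff.rfl

/-- `E₄ M_{k-4} + E₆ M_{k-6}` as a subspace of `ℍ → ℂ`. -/
def fgI (N : ℕ) (k : ℤ) : Submodule ℂ (ℍ → ℂ) where
  carrier := {f | ∃ a b : ℍ → ℂ, IsMF N (k - 4) a ∧ IsMF N (k - 6) b ∧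
    f = (E₄ : ℍ → ℂ) * a + (E₆ : ℍ → ℂ) * b}
  add_mem' := by
    rintro _ _ ⟨a, b, ha, hb, rfl⟩ ⟨a', b', ha', hb', rfl⟩
    exact ⟨a + a', b + b', fg_isMF_add ha ha', fg_isMF_add hb hb', by ring⟩
  zero_mem' := ⟨0, 0, fg_isMF_zero _ _, fg_isMF_zero _ _, by simp⟩
  smul_mem' := by
    rintro c _ ⟨a, b, ha, hb, rfl⟩
    refine ⟨c • a, c • b, fg_isMF_smul c ha, fg_isMF_smul c hb, ?_⟩
    ext z
    simp only [Pi.smul_apply, Pi.add_apply, Pi.mul_apply, smul_eq_mul]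
    ring

lemma fg_mem_fgI {N : ℕ} {k : ℤ} {f : ℍ → ℂ} : f ∈ fgI N k ↔
    ∃ a b : ℍ → ℂ, IsMF N (k - 4) a ∧ IsMF N (k - 6) b ∧
      f = (E₄ : ℍ → ℂ) * a + (E₆ : ℍ → ℂ) * b := Iff.rfl

/-- The quotient `M_k / (E₄ M_{k-4} + E₆ M_{k-6})`. -/
abbrev fgQ (N : ℕ) (k : ℤ) : Type :=
  (fgMF N k) ⧸ (fgI N k).comap (fgMF N k).subtype

/-- index set of the chosen basis of the quotient. -/
abbrev fgIdx (N : ℕ) (k : ℤ) : Type := ↥(Module.Basis.ofVectorSpaceIndex ℂ (fgQ N k))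

/-- the chosen basis of the quotient. -/
noncomputable def fgBasis (N : ℕ) (k : ℤ) : Module.Basis (fgIdx N k) ℂ (fgQ N k) :=
  Module.Basis.ofVectorSpace ℂ (fgQ N k)

/-- lifts of the basis vectors. -/
noncomputable def fgLift (N : ℕ) (k : ℤ) (i : fgIdx N k) : fgMF N k :=
  Classical.choose (Submodule.Quotient.mk_surjective _ (fgBasis N k i))

lemma fgLift_spec (N : ℕ) (k : ℤ) (i : fgIdx N k) :
    Submodule.Quotient.mk (fgLift N k i) = fgBasis N k i :=
  Classical.choose_spec (Submodule.Quotient.mk_surjective _ (fgBasis N k i))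

lemma fgLift_isMF (N : ℕ) (k : ℤ) (i : fgIdx N k) : IsMF N k (fgLift N k i : ℍ → ℂ) :=
  (fgLift N k i).2

/-- generation modulo `E₄ M_{k-4} + E₆ M_{k-6}`. -/
lemma fg_exists_repr {N : ℕ} {k : ℤ} {f : ℍ → ℂ} (hf : IsMF N k f) :
    ∃ (c : fgIdx N k →₀ ℂ) (a b : ℍ → ℂ), IsMF N (k - 4) a ∧ IsMF N (k - 6) b ∧
      f = (c.sum fun i x => x • (fgLift N k i : ℍ → ℂ)) + (E₄ : ℍ → ℂ) * a + (E₆ : ℍ → ℂ) * b := by
  set fb : fgMF N k := ⟨f, hf⟩
  set c := (fgBasis N k).repr (Submodule.Quotient.mk fb) with hc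
  have h1 : Submodule.Quotient.mk (p := (fgI N k).comap (fgMF N k).subtype)
      (c.sum fun i x => x • fgLift N k i) = Submodule.Quotient.mk fb := by
    have h2 := (fgBasis N k).linearCombination_repr (Submodule.Quotient.mk fb)
    rw [← hc, Finsupp.linearCombination_apply] at h2
    rw [← h2, Finsupp.sum, Finsupp.sum, ← Submodule.mkQ_apply, map_sum]
    refine Finset.sum_congr rfl fun i _ => ?_
    rw [map_smul, Submodule.mkQ_apply, fgLift_spec]
  have h3 : fb - (c.sum fun i x => x • fgLift N k i) ∈ (fgI N k).comap (fgMF N k).subtype := by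
    rw [← Submodule.Quotient.eq, h1]
  rw [Submodule.mem_comap] at h3
  obtain ⟨a, b, ha, hb, hab⟩ := h3
  refine ⟨c, a, b, ha, hb, ?_⟩
  have h4 : ((fgMF N k).subtype (c.sum fun i x => x • fgLift N k i) : ℍ → ℂ) =
      c.sum fun i x => x • (fgLift N k i : ℍ → ℂ) := by
    rw [Finsupp.sum, map_sum]
    rfl
  rw [map_sub, h4] at hab
  have h5 : (fgMF N k).subtype fb = f := rfl
  rw [h5] at hab
  rw [add_assoc, ← hab]
  abel

/-- independence modulo `E₄ M_{k-4} + E₆ M_{k-6}`. -/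
lemma fg_eq_zero_of_mem {N : ℕ} {k : ℤ} (c : fgIdx N k →₀ ℂ)
    (h : (c.sum fun i x => x • (fgLift N k i : ℍ → ℂ)) ∈ fgI N k) : c = 0 := by
  have h4 : ((fgMF N k).subtype (c.sum fun i x => x • fgLift N k i) : ℍ → ℂ) =
      c.sum fun i x => x • (fgLift N k i : ℍ → ℂ) := by
    rw [Finsupp.sum, map_sum]
    rfl
  have h3 : (c.sum fun i x => x • fgLift N k i) ∈ (fgI N k).comap (fgMF N k).subtype := by
    rw [Submodule.mem_comap, h4]
    exact h
  have h1 : Submodule.Quotient.mk (p := (fgI N k).comap (fgMF N k).subtype)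
      (c.sum fun i x => x • fgLift N k i) = 0 := by
    rwa [Submodule.Quotient.mk_eq_zero]
  have h2 : Finsupp.linearCombination ℂ (fgBasis N k) c = 0 := by
    rw [Finsupp.linearCombination_apply, ← h1, Finsupp.sum, Finsupp.sum, ← Submodule.mkQ_apply,
      map_sum]
    refine Finset.sum_congr rfl fun i _ => ?_
    rw [map_smul, Submodule.mkQ_apply, fgLift_spec]
  exact (linearIndependent_iff.1 (fgBasis N k).linearIndependent) c h2

end Fermat.Agent.S20
end MergeWrap_S20_FreeGens_Basis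

section MergeWrap_S20_FreeGens_Main -- from S20/FreeGens/Main.lean

set_option autoImplicit false

namespace Fermat.Agent.S20

open UpperHalfPlane ModularForm CongruenceSubgroup EisensteinSeries
open scoped MatrixGroups ModularForm Manifold

/-- index set of all generators. -/
abbrev fgJ (N : ℕ) : Type := Σ k : ℤ, fgIdx N k

/-- weight of a generator. -/
def fgκ (N : ℕ) (j : fgJ N) : ℤ := j.1

/-- the generators. -/
noncomputable def fgF (N : ℕ) (j : fgJ N) : ℍ → ℂ := (fgLift N j.1 j.2 : ℍ → ℂ)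

lemma fgF_isMF (N : ℕ) (j : fgJ N) : IsMF N (fgκ N j) (fgF N j) := fgLift_isMF N j.1 j.2

/-- evaluation of a formal combination. -/
noncomputable def fgEv (N : ℕ) : (fgJ N →₀ (ℍ → ℂ)) →ₗ[ℍ → ℂ] (ℍ → ℂ) :=
  Finsupp.linearCombination (ℍ → ℂ) (fgF N)

lemma fgEv_apply (N : ℕ) (P : fgJ N →₀ (ℍ → ℂ)) :
    fgEv N P = P.sum fun j p => p * fgF N j := by
  rw [fgEv, Finsupp.linearCombination_apply]
  rfl

/-- homogeneity of a formal combination. -/
def fgRep (N : ℕ) (k : ℤ) (P : fgJ N →₀ (ℍ → ℂ)) : Prop :=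
  ∀ j, IsMF 1 (k - fgκ N j) (P j)

lemma fgRep_zero (N : ℕ) (k : ℤ) : fgRep N k 0 := fun _ => fg_isMF_zero _ _

lemma fgRep_add {N : ℕ} {k : ℤ} {P Q : fgJ N →₀ (ℍ → ℂ)} (hP : fgRep N k P)
    (hQ : fgRep N k Q) : fgRep N k (P + Q) := fun j => by
  rw [Finsupp.add_apply]
  exact fg_isMF_add (hP j) (hQ j)

lemma fgRep_neg {N : ℕ} {k : ℤ} {P : fgJ N →₀ (ℍ → ℂ)} (hP : fgRep N k P) :
    fgRep N k (-P) := fun j => by
  rw [Finsupp.neg_apply]
  exact fg_isMF_neg (hP j)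

lemma fgRep_smul {N : ℕ} {k m l : ℤ} {P : fgJ N →₀ (ℍ → ℂ)} {Q : ℍ → ℂ} (hQ : IsMF 1 m Q)
    (hP : fgRep N k P) (h : m + k = l) : fgRep N l (Q • P) := fun j => by
  rw [Finsupp.smul_apply, smul_eq_mul]
  exact fg_isMF_mul' hQ (hP j) (by rw [← h]; ring)

lemma fgEv_isMF {N : ℕ} {k : ℤ} {P : fgJ N →₀ (ℍ → ℂ)} (hP : fgRep N k P) :
    IsMF N k (fgEv N P) := by
  rw [fgEv_apply, Finsupp.sum]
  refine fg_isMF_sum _ _ fun j _ => ?_
  exact fg_isMF_mul' (fg_isMF_of_one (hP j)) (fgF_isMF N j) (by ring)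

/-- constants in weight `k`. -/
noncomputable def fgConst (N : ℕ) (k : ℤ) (c : fgIdx N k →₀ ℂ) : fgJ N →₀ (ℍ → ℂ) :=
  Finsupp.embDomain ⟨Sigma.mk k, sigma_mk_injective⟩
    (c.mapRange (fun z => (fun _ : ℍ => z)) rfl)

lemma fgConst_apply_mk (N : ℕ) (k : ℤ) (c : fgIdx N k →₀ ℂ) (i : fgIdx N k) :
    fgConst N k c ⟨k, i⟩ = fun _ => c i := by
  have := Finsupp.embDomain_apply_self (⟨Sigma.mk k, sigma_mk_injective⟩ : fgIdx N k ↪ fgJ N)
    (c.mapRange (fun z => (fun _ : ℍ => z)) rfl) i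
  rw [fgConst]
  simpa using this

lemma fgConst_apply_of_ne (N : ℕ) (k : ℤ) (c : fgIdx N k →₀ ℂ) (j : fgJ N) (hj : j.1 ≠ k) :
    fgConst N k c j = 0 := by
  rw [fgConst]
  refine Finsupp.embDomain_of_notMem_range _ _ _ ?_
  rintro ⟨i, rfl⟩
  exact hj rfl

lemma fgRep_const (N : ℕ) (k : ℤ) (c : fgIdx N k →₀ ℂ) : fgRep N k (fgConst N k c) := by
  rintro ⟨k', i⟩
  by_cases h : k' = k
  · subst h
    rw [fgConst_apply_mk]
    exact fg_isMF_cast (fg_isMF_const 1 (c i)) (by simp [fgκ])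
  · rw [fgConst_apply_of_ne N k c ⟨k', i⟩ h]
    exact fg_isMF_zero _ _

lemma fgEv_const (N : ℕ) (k : ℤ) (c : fgIdx N k →₀ ℂ) :
    fgEv N (fgConst N k c) = c.sum fun i x => x • (fgLift N k i : ℍ → ℂ) := by
  rw [fgEv_apply, fgConst, Finsupp.sum_embDomain, Finsupp.sum_mapRange_index (by intro i; simp)]
  refine Finsupp.sum_congr fun i _ => ?_
  ext z
  simp [fgF]

end Fermat.Agent.S20

namespace Fermat.Agent.S20

open UpperHalfPlane ModularForm CongruenceSubgroup EisensteinSeries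
open scoped MatrixGroups ModularForm Manifold

/-- generation, `Finsupp` form. -/
theorem fg_generation (N : ℕ) [NeZero N] :
    ∀ (n : ℕ) (k : ℤ), k < n → ∀ f : ℍ → ℂ, IsMF N k f →
      ∃ P : fgJ N →₀ (ℍ → ℂ), fgRep N k P ∧ fgEv N P = f := by
  intro n
  induction n with
  | zero =>
    intro k hk f hf
    refine ⟨0, fgRep_zero N k, ?_⟩
    rw [map_zero]
    exact (fg_eq_zero_of_neg hf (by simpa using hk)).symm
  | succ n ih =>
    intro k hk f hf
    obtain ⟨c, a, b, ha, hb, hfab⟩ := fg_exists_repr hf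
    have hk4 : k - 4 < n := by push_cast at hk; omega
    have hk6 : k - 6 < n := by push_cast at hk; omega
    obtain ⟨Pa, hPa, hPa'⟩ := ih (k - 4) hk4 a ha
    obtain ⟨Pb, hPb, hPb'⟩ := ih (k - 6) hk6 b hb
    refine ⟨fgConst N k c + ((E₄ : ℍ → ℂ) • Pa + (E₆ : ℍ → ℂ) • Pb),
      fgRep_add (fgRep_const N k c)
        (fgRep_add (fgRep_smul fg_isMF_E₄ hPa (by ring)) (fgRep_smul fg_isMF_E₆ hPb (by ring))), ?_⟩
    rw [map_add, map_add, map_smul, map_smul, fgEv_const, hPa', hPb', hfab, smul_eq_mul,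
      smul_eq_mul, add_assoc]

theorem fg_generation' (N : ℕ) [NeZero N] (k : ℤ) (f : ℍ → ℂ) (hf : IsMF N k f) :
    ∃ P : fgJ N →₀ (ℍ → ℂ), fgRep N k P ∧ fgEv N P = f :=
  fg_generation N (k.toNat + 1) k (by push_cast; have := Int.self_le_toNat k; omega) f hf

/-- splitting a level-one form into constant part and `(E₄, E₆)`-part. -/
lemma fg_levelOne_split {m : ℤ} {P : ℍ → ℂ} (h : IsMF 1 m P) :
    ∃ (c : ℂ) (A B : ℍ → ℂ), IsMF 1 (m - 4) A ∧ IsMF 1 (m - 6) B ∧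
      P = (fun _ => c) + (E₄ : ℍ → ℂ) * A + (E₆ : ℍ → ℂ) * B ∧ (m ≠ 0 → c = 0) ∧
      (P = 0 → c = 0 ∧ A = 0 ∧ B = 0) := by
  by_cases hP : P = 0
  · refine ⟨0, 0, 0, fg_isMF_zero _ _, fg_isMF_zero _ _, ?_, fun _ => rfl, fun _ => ⟨rfl, rfl, rfl⟩⟩
    rw [hP]
    ext z
    simp
  by_cases hm : m = 0
  · subst hm
    obtain ⟨c, hc⟩ := fg_levelOne_const h
    refine ⟨c, 0, 0, fg_isMF_zero _ _, fg_isMF_zero _ _, ?_, fun h => absurd rfl h,
      fun h => absurd h hP⟩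
    rw [hc]
    ext z
    simp
  · obtain ⟨A, B, hA, hB, hAB⟩ := fg_levelOne_decomp h hm
    refine ⟨0, A, B, hA, hB, ?_, fun _ => rfl, fun h => absurd h hP⟩
    rw [hAB]
    ext z
    simp

end Fermat.Agent.S20
end MergeWrap_S20_FreeGens_Main

section MergeWrap_S20_FreeGens_Free -- from S20/FreeGens/Free.lean

set_option autoImplicit false

namespace Fermat.Agent.S20

open UpperHalfPlane ModularForm CongruenceSubgroup EisensteinSeries
open scoped MatrixGroups ModularForm Manifold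

/-- there are no generators of negative weight. -/
lemma fgκ_nonneg (N : ℕ) [NeZero N] (j : fgJ N) : 0 ≤ fgκ N j := by
  obtain ⟨k, i⟩ := j
  by_contra hk
  have hk' : k < 0 := by simpa [fgκ] using hk
  have h0 : (fgLift N k i : ℍ → ℂ) = 0 := fg_eq_zero_of_neg (fgLift_isMF N k i) hk'
  have h1 : fgLift N k i = 0 := Subtype.ext h0
  have h2 := fgLift_spec N k i
  rw [h1, Submodule.Quotient.mk_zero] at h2
  exact (fgBasis N k).ne_zero i h2.symm

/-- freeness, `Finsupp` form. -/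
theorem fg_freeness (N : ℕ) [NeZero N] :
    ∀ (n : ℕ) (k : ℤ), k < n → ∀ P : fgJ N →₀ (ℍ → ℂ), fgRep N k P → fgEv N P = 0 → P = 0 := by
  intro n
  induction n with
  | zero =>
    intro k hk P hP _
    ext j : 1
    have hneg : k - fgκ N j < 0 := by
      have := fgκ_nonneg N j
      have hk' : k < 0 := by simpa using hk
      omega
    rw [fg_levelOne_eq_zero_of_neg (hP j) hneg]
    rfl
  | succ n ih =>
    intro k hk P hP hev
    have hk4 : k - 4 < n := by push_cast at hk; omega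
    have hk6 : k - 6 < n := by push_cast at hk; omega
    choose c A B hA hB hPeq hc h0 using fun j => fg_levelOne_split (hP j)
    have hsupp : ∀ j, j ∉ P.support → P j = 0 := fun j hj => by
      simpa [Finsupp.mem_support_iff] using hj
    let Af : fgJ N →₀ (ℍ → ℂ) := Finsupp.onFinset P.support A (fun j hj => by
      by_contra hjs
      exact hj (h0 j (hsupp j hjs)).2.1)
    let Bf : fgJ N →₀ (ℍ → ℂ) := Finsupp.onFinset P.support B (fun j hj => by
      by_contra hjs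
      exact hj (h0 j (hsupp j hjs)).2.2)
    let cJ : fgJ N →₀ ℂ := Finsupp.onFinset P.support c (fun j hj => by
      by_contra hjs
      exact hj (h0 j (hsupp j hjs)).1)
    let cf : fgIdx N k →₀ ℂ := Finsupp.split cJ k
    have hAf : fgRep N (k - 4) Af := fun j => by
      have : Af j = A j := rfl
      rw [this]
      exact fg_isMF_cast (hA j) (by ring)
    have hBf : fgRep N (k - 6) Bf := fun j => by
      have : Bf j = B j := rfl
      rw [this]
      exact fg_isMF_cast (hB j) (by ring)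
    have hsplit : P = fgConst N k cf + ((E₄ : ℍ → ℂ) • Af + (E₆ : ℍ → ℂ) • Bf) := by
      ext j : 1
      rw [Finsupp.add_apply, Finsupp.add_apply, Finsupp.smul_apply, Finsupp.smul_apply,
        smul_eq_mul, smul_eq_mul]
      have hAj : Af j = A j := rfl
      have hBj : Bf j = B j := rfl
      rw [hAj, hBj]
      obtain ⟨k', i⟩ := j
      by_cases hkk : k' = k
      · subst hkk
        rw [fgConst_apply_mk]
        have hcf : cf i = c ⟨k', i⟩ := rfl
        rw [hcf, hPeq ⟨k', i⟩, add_assoc]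
      · rw [fgConst_apply_of_ne N k cf ⟨k', i⟩ hkk, zero_add]
        have hc0 : c ⟨k', i⟩ = 0 := hc ⟨k', i⟩ (by
          simp only [fgκ]
          intro h
          apply hkk
          omega)
        have := hPeq ⟨k', i⟩
        rw [hc0] at this
        rw [this]
        ext z
        simp
    have hev' : fgEv N (fgConst N k cf) + ((E₄ : ℍ → ℂ) * fgEv N Af + (E₆ : ℍ → ℂ) * fgEv N Bf)
        = 0 := by
      rw [← hev]
      conv_rhs => rw [hsplit]
      rw [map_add, map_add, map_smul, map_smul, smul_eq_mul, smul_eq_mul]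
    -- the constant part vanishes
    have hcf0 : cf = 0 := by
      apply fg_eq_zero_of_mem
      rw [← fgEv_const]
      refine ⟨-fgEv N Af, -fgEv N Bf, fg_isMF_neg (fgEv_isMF hAf), fg_isMF_neg (fgEv_isMF hBf), ?_⟩
      have := eq_neg_of_add_eq_zero_left hev'
      rw [this]
      ring
    have hconst0 : fgConst N k cf = 0 := by
      rw [hcf0, fgConst]
      simp
    rw [hconst0, map_zero, zero_add] at hev'
    obtain ⟨h, hh, hBh, hAh⟩ := fg_regular (fgEv_isMF hAf) (fgEv_isMF hBf) hev'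
    obtain ⟨H, hH, hHev⟩ := fg_generation' N (k - 10) h hh
    have hA0 : Af + (E₆ : ℍ → ℂ) • H = 0 := by
      apply ih (k - 4) hk4 _ (fgRep_add hAf (fgRep_smul fg_isMF_E₆ hH (by ring)))
      rw [map_add, map_smul, hHev, hAh, smul_eq_mul]
      ring
    have hB0 : Bf + (-(E₄ : ℍ → ℂ)) • H = 0 := by
      apply ih (k - 6) hk6 _ (fgRep_add hBf (fgRep_smul (fg_isMF_neg fg_isMF_E₄) hH (by ring)))
      rw [map_add, map_smul, hHev, hBh, smul_eq_mul]
      ring
    rw [hsplit, hconst0, zero_add, eq_neg_of_add_eq_zero_left hA0, eq_neg_of_add_eq_zero_left hB0]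
    rw [smul_neg, smul_neg, smul_smul, smul_smul]
    have hmul : (E₆ : ℍ → ℂ) * (-(E₄ : ℍ → ℂ)) = -((E₄ : ℍ → ℂ) * (E₆ : ℍ → ℂ)) := by ring
    rw [hmul]
    ext j : 1
    simp only [Finsupp.add_apply, Finsupp.neg_apply, Finsupp.smul_apply, Finsupp.zero_apply,
      smul_eq_mul]
    ring

theorem fg_freeness' (N : ℕ) [NeZero N] (k : ℤ) (P : fgJ N →₀ (ℍ → ℂ)) (hP : fgRep N k P)
    (hev : fgEv N P = 0) : P = 0 :=
  fg_freeness N (k.toNat + 1) k (by push_cast; have := Int.self_le_toNat k; omega) P hP hev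

end Fermat.Agent.S20
end MergeWrap_S20_FreeGens_Free

section MergeWrap_S20_FreeGens -- from S20/FreeGens.lean

set_option autoImplicit false

namespace Fermat.Agent.S20

open UpperHalfPlane ModularForm CongruenceSubgroup
open scoped MatrixGroups ModularForm Manifold

theorem exists_free_generators (N : ℕ) [NeZero N] :
    ∃ (J : Type) (κ : J → ℤ) (F : J → ℍ → ℂ),
      (∀ j, IsMF N (κ j) (F j)) ∧
      (∀ (k : ℤ) (f : ℍ → ℂ), IsMF N k f →
        ∃ (s : Finset J) (P : J → ℍ → ℂ), (∀ j ∈ s, IsMF 1 (k - κ j) (P j)) ∧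
          f = ∑ j ∈ s, P j * F j) ∧
      (∀ (k : ℤ) (s : Finset J) (P : J → ℍ → ℂ), (∀ j ∈ s, IsMF 1 (k - κ j) (P j)) →
          ∑ j ∈ s, P j * F j = 0 → ∀ j ∈ s, P j = 0) := by
  classical
  refine ⟨fgJ N, fgκ N, fgF N, fgF_isMF N, ?_, ?_⟩
  · intro k f hf
    obtain ⟨P, hP, hPf⟩ := fg_generation' N k f hf
    refine ⟨P.support, ⇑P, fun j _ => hP j, ?_⟩
    rw [← hPf, fgEv_apply]
    rfl
  · intro k s P hP hsum
    have hsupp : ∀ j, (if j ∈ s then P j else 0) ≠ 0 → j ∈ s := by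
      intro j hj
      by_contra hjs
      exact hj (if_neg hjs)
    let Pf : fgJ N →₀ (ℍ → ℂ) := Finsupp.onFinset s (fun j => if j ∈ s then P j else 0) hsupp
    have hPf : ∀ j, Pf j = if j ∈ s then P j else 0 := fun j => rfl
    have hrep : fgRep N k Pf := by
      intro j
      rw [hPf]
      by_cases hj : j ∈ s
      · rw [if_pos hj]
        exact hP j hj
      · rw [if_neg hj]
        exact fg_isMF_zero _ _
    have hev : fgEv N Pf = 0 := by
      have h1 : (Pf.sum fun j p => p * fgF N j)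
          = ∑ j ∈ s, (if j ∈ s then P j else 0) * fgF N j :=
        Finsupp.onFinset_sum (g := fun j p => p * fgF N j) hsupp (fun j => zero_mul _)
      rw [fgEv_apply, h1, ← hsum]
      refine Finset.sum_congr rfl fun j hj => ?_
      rw [if_pos hj]
    have h0 := fg_freeness' N k Pf hrep hev
    intro j hj
    have := hPf j
    rw [if_pos hj, h0] at this
    exact this.symm

end Fermat.Agent.S20
end MergeWrap_S20_FreeGens

section MergeWrap_S20_Gens -- from S20/Gens.lean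

set_option autoImplicit false
set_option linter.unusedSectionVars false

namespace Fermat.Agent.S20

open UpperHalfPlane hiding I
open ModularForm CongruenceSubgroup Filter Topology Complex
open scoped MatrixGroups ModularForm Manifold Real

local notation "Δ" => ModularForm.discriminant

/-- A system of free generators of `M_*(Γ₀(N))` over `M_*(SL(2,ℤ))`. -/
structure Gens (N : ℕ) where
  J : Type
  κ : J → ℤ
  F : J → ℍ → ℂ
  isMF : ∀ j, IsMF N (κ j) (F j)
  gen : ∀ (k : ℤ) (f : ℍ → ℂ), IsMF N k f →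
    ∃ (s : Finset J) (P : J → ℍ → ℂ), (∀ j ∈ s, IsMF 1 (k - κ j) (P j)) ∧
      f = ∑ j ∈ s, P j * F j
  free : ∀ (k : ℤ) (s : Finset J) (P : J → ℍ → ℂ), (∀ j ∈ s, IsMF 1 (k - κ j) (P j)) →
    ∑ j ∈ s, P j * F j = 0 → ∀ j ∈ s, P j = 0

theorem nonempty_gens (N : ℕ) [NeZero N] : Nonempty (Gens N) := by
  obtain ⟨J, κ, F, h1, h2, h3⟩ := exists_free_generators N
  exact ⟨⟨J, κ, F, h1, h2, h3⟩⟩

namespace Gens

variable {N : ℕ} [NeZero N] (𝔊 : Gens N)

/-- the vector `(F_{j,x}(z))_{x ∈ X}` of values at `z` of the translates of the generator `F j`. -/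
noncomputable def vec (j : 𝔊.J) (z : ℍ) : CosetX N → ℂ :=
  fun x => tr N (𝔊.κ j) (𝔊.F j) x z

/-! ### (G0) basic consequences of freeness -/

/-- freeness with `s = {j}`, `P j = 1`. -/
lemma F_ne_zero (j : 𝔊.J) : 𝔊.F j ≠ 0 := by
  classical
  intro h0
  have hP : ∀ i ∈ ({j} : Finset 𝔊.J), IsMF 1 (𝔊.κ j - 𝔊.κ i) ((fun _ => fun _ => (1 : ℂ)) i) := by
    intro i hi
    rw [Finset.mem_singleton] at hi
    subst hi
    exact (IsMF.const (1 : ℂ)).cast (sub_self _).symm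
  have hsum : ∑ i ∈ ({j} : Finset 𝔊.J), ((fun _ => fun _ => (1 : ℂ)) i : ℍ → ℂ) * 𝔊.F i = 0 := by
    rw [Finset.sum_singleton, h0, mul_zero]
  have := 𝔊.free (𝔊.κ j) {j} (fun _ => fun _ => (1 : ℂ)) hP hsum j (Finset.mem_singleton_self j)
  have h1 := congrFun this UpperHalfPlane.I
  simp at h1

lemma κ_nonneg (j : 𝔊.J) : 0 ≤ 𝔊.κ j := by
  by_contra h
  exact 𝔊.F_ne_zero j ((𝔊.isMF j).eq_zero_of_neg (not_le.mp h))

lemma κ_even (j : 𝔊.J) : Even (𝔊.κ j) := by
  by_contra h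
  exact 𝔊.F_ne_zero j ((𝔊.isMF j).eq_zero_of_odd (Int.not_even_iff_odd.mp h))

/-- exactly one generator has weight `0` (`M_0(Γ₀(N)) = ℂ`; generation applied to `f = 1`; freeness). -/
lemma card_weight_zero : Nat.card {j : 𝔊.J // 𝔊.κ j = 0} = 1 := by
  classical
  rw [Nat.card_eq_one_iff_unique]
  constructor
  · -- uniqueness
    constructor
    rintro ⟨j₁, h₁⟩ ⟨j₂, h₂⟩
    by_contra hne
    have hne' : j₁ ≠ j₂ := fun e => hne (Subtype.ext e)
    obtain ⟨c₁, hc₁⟩ := ((𝔊.isMF j₁).cast h₁).eq_const_of_zero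
    obtain ⟨c₂, hc₂⟩ := ((𝔊.isMF j₂).cast h₂).eq_const_of_zero
    have hc₁0 : c₁ ≠ 0 := by
      rintro rfl
      exact 𝔊.F_ne_zero j₁ (by rw [hc₁]; rfl)
    let P : 𝔊.J → ℍ → ℂ := fun i => if i = j₁ then (fun _ => c₂) else (fun _ => -c₁)
    have hP : ∀ i ∈ ({j₁, j₂} : Finset 𝔊.J), IsMF 1 (0 - 𝔊.κ i) (P i) := by
      intro i hi
      rw [Finset.mem_insert, Finset.mem_singleton] at hi
      rcases hi with rfl | rfl
      · simp only [P, if_true]
        exact (IsMF.const c₂).cast (by rw [h₁, sub_zero])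
      · simp only [P, if_neg (Ne.symm hne')]
        exact (IsMF.const (-c₁)).cast (by rw [h₂, sub_zero])
    have hsum : ∑ i ∈ ({j₁, j₂} : Finset 𝔊.J), P i * 𝔊.F i = 0 := by
      rw [Finset.sum_pair hne']
      simp only [P, if_true, if_neg (Ne.symm hne')]
      rw [hc₁, hc₂]
      funext z
      simp only [Pi.add_apply, Pi.mul_apply, Pi.zero_apply]
      ring
    have := 𝔊.free 0 {j₁, j₂} P hP hsum j₂ (by simp)
    simp only [P, if_neg (Ne.symm hne')] at this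
    have h1 := congrFun this UpperHalfPlane.I
    simp only [Pi.zero_apply, neg_eq_zero] at h1
    exact hc₁0 h1
  · -- existence
    obtain ⟨s, P, hP, hsum⟩ := 𝔊.gen 0 (fun _ => (1 : ℂ)) (IsMF.const 1)
    by_contra hemp
    rw [not_nonempty_iff] at hemp
    have hzero : ∀ j ∈ s, P j * 𝔊.F j = 0 := by
      intro j hj
      have hκ : 0 < 𝔊.κ j := by
        rcases (𝔊.κ_nonneg j).lt_or_eq with h | h
        · exact h
        · exact (hemp.false ⟨j, h.symm⟩).elim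
      rw [(hP j hj).eq_zero_of_neg (by linarith), zero_mul]
    rw [Finset.sum_eq_zero hzero] at hsum
    have h1 := congrFun hsum UpperHalfPlane.I
    simp at h1

/-- behaviour of `vec` under `SL(2,ℤ)` (from `slash_apply_eq` and `IsMF.tr_slash`). -/
lemma vec_smul (j : 𝔊.J) (g : SL(2, ℤ)) (z : ℍ) (x : CosetX N) :
    𝔊.vec j (g • z) x = (denom g z) ^ (𝔊.κ j) * 𝔊.vec j z (g⁻¹ • x) := by
  unfold vec
  rw [slash_apply_eq (tr N (𝔊.κ j) (𝔊.F j) x) (𝔊.κ j) g z, (𝔊.isMF j).tr_slash, mul_comm]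

/-! ### (G1) the key step
If `∑_{j ∈ s} c_j G_j F_j = φ h` with `G_j, φ` of level one and `h` of level `N`, then `c_j G_j = φ Q_j` with
`Q_j` of level one.  (Write `h = ∑_{j ∈ s'} Q_j F_j` by `gen`, and apply `free` on `s ∪ s'`.) -/
lemma exists_eq_mul_of_sum_eq_mul (K l : ℤ) (s : Finset 𝔊.J) (c : 𝔊.J → ℂ) (G : 𝔊.J → ℍ → ℂ)
    (hG : ∀ j ∈ s, IsMF 1 (K - 𝔊.κ j) (G j)) (φ h : ℍ → ℂ) (hφ : IsMF 1 l φ)
    (hh : IsMF N (K - l) h) (heq : ∑ j ∈ s, c j • (G j * 𝔊.F j) = φ * h) :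
    ∀ j ∈ s, ∃ Q : ℍ → ℂ, IsMF 1 (K - l - 𝔊.κ j) Q ∧ c j • G j = φ * Q := by
  classical
  obtain ⟨s', Q, hQ, hhsum⟩ := 𝔊.gen (K - l) h hh
  let P : 𝔊.J → ℍ → ℂ := fun j =>
    (if j ∈ s then c j • G j else 0) - (if j ∈ s' then φ * Q j else 0)
  have hP : ∀ j ∈ s ∪ s', IsMF 1 (K - 𝔊.κ j) (P j) := by
    intro j _
    refine IsMF.sub ?_ ?_
    · by_cases hj : j ∈ s
      · simp only [if_pos hj]; exact (hG j hj).smul (c j)
      · simp only [if_neg hj]; exact IsMF.zero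
    · by_cases hj : j ∈ s'
      · simp only [if_pos hj]
        exact (hφ.mul (hQ j hj)).cast (by ring)
      · simp only [if_neg hj]; exact IsMF.zero
  have hsum : ∑ j ∈ s ∪ s', P j * 𝔊.F j = 0 := by
    simp only [P, sub_mul, Finset.sum_sub_distrib, ite_mul, zero_mul]
    rw [Finset.sum_ite_mem, Finset.sum_ite_mem, Finset.union_inter_cancel_left,
      Finset.union_inter_cancel_right]
    have e1 : ∑ j ∈ s, c j • G j * 𝔊.F j = φ * h := by
      rw [← heq]
      exact Finset.sum_congr rfl fun j _ => by rw [smul_mul_assoc]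
    have e2 : ∑ j ∈ s', φ * Q j * 𝔊.F j = φ * h := by
      rw [hhsum, Finset.mul_sum]
      exact Finset.sum_congr rfl fun j _ => by rw [mul_assoc]
    rw [e1, e2, sub_self]
  intro j hj
  have h0 := 𝔊.free K (s ∪ s') P hP hsum j (Finset.mem_union_left _ hj)
  simp only [P, if_pos hj] at h0
  by_cases hj' : j ∈ s'
  · refine ⟨Q j, hQ j hj', ?_⟩
    simp only [if_pos hj'] at h0
    exact sub_eq_zero.mp h0
  · refine ⟨0, IsMF.zero, ?_⟩
    simp only [if_neg hj', sub_zero] at h0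
    rw [h0, mul_zero]

end Gens

end Fermat.Agent.S20
end MergeWrap_S20_Gens
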